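/-
Program MAZ (S15), chapter Point, helper62: ASSEMBLY OF THE MODULI LINK `XMod`.

`xMod_of_contracts` : the contract `XSpec62.XMod p cZ` from

* `ModGlobal p`  (MOD-GLOBAL, the complex-analytic side): a point `Q` of exact order `p` on an elliptic
  curve `E` over `ℚbar` gives a place `x` of `FF p` with `j(x) = c₄³/Δ` and
  `j_p(x) = velJ p Q = c₄'³ Π⁴ / Δ^p`, where `c₄' = c₄ + 120 Σ_{k=1}^{p-1} t(kQ)`,
  `Π = ∏_{k=1}^{p-1} ψ₂(kQ)` (Vélu + the identity `Δ(L') Π⁴ = Δ(L)^p`);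
* `ModLocNode`, `ZeroCompNsmul`, `ModLocUnit p` (MOD-LOC, the local analysis at a multiplicative prime);
* `NPDich p` (Newton dichotomy of `Φ_p` at a place of `FF p`), `PPFixed p` (a rational nonsingular plane
  point gives a Galois-fixed place).
-/
import Mathlib
import Fermat.Agent.MAZ.Spec.XSpec62
import Fermat.Agent.S13.GalRat

set_option autoImplicit false
set_option linter.unusedSectionVars false
set_option linter.style.haveILetI false

open AlgebraicCurve ModularCurve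
open WeierstrassCurve WeierstrassCurve.Affine

noncomputable section

namespace Fermat.Agent.MAZ.Point.ModAsm62

open Fermat.Agent.X0 Fermat.Agent.MAZ.Spec.XSpec62

/-! ### Coordinates of points and the Vélu quantities -/

section Coord

variable {F : Type*} [Field F] [DecidableEq F] {E : WeierstrassCurve.Affine F}

/-- The `x`-coordinate of a point (`0` at the zero point). -/
def xOf : E.Point → F
  | .zero => 0
  | .some x _ _ => x

/-- The `y`-coordinate of a point (`0` at the zero point). -/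
def yOf : E.Point → F
  | .zero => 0
  | .some _ y _ => y

/-- `ψ₂(P) = 2y + a₁x + a₃` (`0` at the zero point). -/
def psi2 : E.Point → F
  | .zero => 0
  | .some x y _ => 2 * y + E.a₁ * x + E.a₃

/-- `t(P) = 6x² + b₂x + b₄` (`0` at the zero point). -/
def tOf : E.Point → F
  | .zero => 0
  | .some x _ _ => 6 * x ^ 2 + E.b₂ * x + E.b₄

/-- Vélu's `c₄' = c₄ + 120 Σ_{k=1}^{p-1} t(kQ)`. -/
def velC4 (p : ℕ) (Q : E.Point) : F := E.c₄ + 120 * ∑ k ∈ Finset.Ico 1 p, tOf (k • Q)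

/-- `Π = ∏_{k=1}^{p-1} ψ₂(kQ)`. -/
def velPi (p : ℕ) (Q : E.Point) : F := ∏ k ∈ Finset.Ico 1 p, psi2 (k • Q)

/-- `j` of the quotient curve: `c₄'³ Π⁴ / Δ^p`. -/
def velJ (p : ℕ) (Q : E.Point) : F := velC4 p Q ^ 3 * velPi p Q ^ 4 / E.Δ ^ p

end Coord

/-! ### The contracts -/

section Contracts

variable (p : ℕ) [NeZero p]

/-- **(MOD-GLOBAL)** the analytic side. -/
def ModGlobal : Prop :=
  ∀ (E : WeierstrassCurve.Affine Qb), E.Δ ≠ 0 → ∀ Q : E.Point, addOrderOf Q = p →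
    ∃ x : Place Qb (FF p), HasValue x (jF p) (E.c₄ ^ 3 / E.Δ) ∧ HasValue x (jpF p) (velJ p Q)

/-- **(MOD-LOC, node)** a point outside the identity component has integral `x`-coordinate and
`ψ₂`, `t` vanish at it modulo the maximal ideal. -/
def ModLocNode : Prop :=
  ∀ (W : WeierstrassCurve ℤ) (A : ValuationSubring Qb)
    (P : ((W.map (Int.castRingHom ℚ))⁄Qb).Point), ¬ W.InZeroComponentAt A P →
      A.valuation (psi2 P) < 1 ∧ A.valuation (tOf P) < 1

/-- The identity component is stable under multiplication by integers. -/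
def ZeroCompNsmul : Prop :=
  ∀ (W : WeierstrassCurve ℤ) (A : ValuationSubring Qb)
    (P : ((W.map (Int.castRingHom ℚ))⁄Qb).Point) (n : ℕ),
      W.InZeroComponentAt A P → W.InZeroComponentAt A (n • P)

/-- **(MOD-LOC, unit)** for a point of order `p` in the identity component at a multiplicative prime
`q ≠ p`, the `ψ₂(kQ)` and Vélu's `c₄'` are units. -/
def ModLocUnit : Prop :=
  ∀ (W : WeierstrassCurve ℤ) (q : ℕ), q.Prime → q ≠ p → (q : ℤ) ∣ W.Δ → ¬ (q : ℤ) ∣ W.c₄ →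
    ∀ A : ValuationSubring Qb, A.LiesOverPrime q →
    ∀ Q : ((W.map (Int.castRingHom ℚ))⁄Qb).Point, addOrderOf Q = p → W.InZeroComponentAt A Q →
      (∀ k ∈ Finset.Ico 1 p, A.valuation (psi2 (k • Q)) = 1) ∧ A.valuation (velC4 p Q) = 1

/-- **(NP)** Newton dichotomy for the values of `(j, j_p)` at a place of `FF p`. -/
def NPDich : Prop :=
  ∀ (x : Place Qb (FF p)) (a b : Qb), HasValue x (jF p) a → HasValue x (jpF p) b →
    ∀ A : ValuationSubring Qb, a ∉ A →
      A.valuation b = A.valuation (a ^ p) ∨ A.valuation (b ^ p) = A.valuation a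

/-- **(PP)** a place with rational values of `(j, j_p)`, the first one non-integral somewhere, is
Galois-fixed. -/
def PPFixed : Prop :=
  ∀ (x : Place Qb (FF p)) (a b : ℚ), HasValue x (jF p) (a : Qb) → HasValue x (jpF p) (b : Qb) →
    (∃ A : ValuationSubring Qb, (a : Qb) ∉ A) → PlaceFixed p x

end Contracts

/-! ### Rationality of the coordinates of Galois-fixed points -/

section Rational

/-- The subfield of rational numbers of `ℚbar`. -/
def ratField : Subfield Qb := (algebraMap ℚ Qb).fieldRange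

theorem mem_ratField_iff {x : Qb} : x ∈ ratField ↔ ∃ r : ℚ, (r : Qb) = x := by
  unfold ratField
  rw [RingHom.mem_fieldRange]
  constructor
  · rintro ⟨r, rfl⟩
    exact ⟨r, (eq_ratCast (algebraMap ℚ Qb) r).symm⟩
  · rintro ⟨r, rfl⟩
    exact ⟨r, eq_ratCast (algebraMap ℚ Qb) r⟩

theorem intCast_mem_ratField (n : ℤ) : (n : Qb) ∈ ratField := intCast_mem _ n

variable (W : WeierstrassCurve ℤ)

local notation "EW" => (W.map (Int.castRingHom ℚ))⁄Qb

theorem coeff_mem_ratField :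
    (EW).a₁ ∈ ratField ∧ (EW).a₃ ∈ ratField ∧ (EW).b₂ ∈ ratField ∧ (EW).b₄ ∈ ratField ∧
      (EW).c₄ ∈ ratField ∧ (EW).Δ ∈ ratField := by
  have h : ∀ r : ℚ, algebraMap ℚ Qb r ∈ ratField := fun r =>
    (RingHom.mem_fieldRange).mpr ⟨r, rfl⟩
  refine ⟨h _, h _, ?_, ?_, ?_, ?_⟩
  · rw [show (EW).b₂ = algebraMap ℚ Qb (W.map (Int.castRingHom ℚ)).b₂ from
      WeierstrassCurve.map_b₂ _ _]
    exact h _
  · rw [show (EW).b₄ = algebraMap ℚ Qb (W.map (Int.castRingHom ℚ)).b₄ from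
      WeierstrassCurve.map_b₄ _ _]
    exact h _
  · rw [show (EW).c₄ = algebraMap ℚ Qb (W.map (Int.castRingHom ℚ)).c₄ from
      WeierstrassCurve.map_c₄ _ _]
    exact h _
  · rw [show (EW).Δ = algebraMap ℚ Qb (W.map (Int.castRingHom ℚ)).Δ from
      WeierstrassCurve.map_Δ _ _]
    exact h _

variable {W}

theorem coords_mem_ratField {P : (EW).Point} (hP : ∀ σ : GQ, σ • P = P) :
    psi2 P ∈ ratField ∧ tOf P ∈ ratField := by
  obtain ⟨ha1, ha3, hb2, hb4, -, -⟩ := coeff_mem_ratField W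
  rcases P with _ | ⟨x, y, h⟩
  · exact ⟨zero_mem _, zero_mem _⟩
  · have hxy : ∀ σ : GQ, σ x = x ∧ σ y = y := by
      intro σ
      have h1 := hP σ
      rw [Point.algEquiv_smul_def, Point.map_some] at h1
      have h2 := Point.some.inj h1
      exact ⟨h2.1, h2.2⟩
    have hx : x ∈ ratField := by
      obtain ⟨r, hr⟩ := Fermat.Agent.S13.GalRat.exists_ratCast_of_fixed x fun σ => (hxy σ).1
      exact mem_ratField_iff.mpr ⟨r, hr⟩
    have hy : y ∈ ratField := by
      obtain ⟨r, hr⟩ := Fermat.Agent.S13.GalRat.exists_ratCast_of_fixed y fun σ => (hxy σ).2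
      exact mem_ratField_iff.mpr ⟨r, hr⟩
    have h2 : (2 : Qb) ∈ ratField := by exact_mod_cast intCast_mem_ratField 2
    have h6 : (6 : Qb) ∈ ratField := by exact_mod_cast intCast_mem_ratField 6
    refine ⟨?_, ?_⟩
    · show 2 * y + (EW).a₁ * x + (EW).a₃ ∈ ratField
      exact add_mem (add_mem (mul_mem h2 hy) (mul_mem ha1 hx)) ha3
    · show 6 * x ^ 2 + (EW).b₂ * x + (EW).b₄ ∈ ratField
      exact add_mem (add_mem (mul_mem h6 (pow_mem hx 2)) (mul_mem hb2 hx)) hb4

theorem velJ_mem_ratField {Q : (EW).Point} (hQ : ∀ σ : GQ, σ • Q = Q) (p : ℕ) :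
    velJ p Q ∈ ratField := by
  obtain ⟨-, -, -, -, hc4, hΔ⟩ := coeff_mem_ratField W
  have hk : ∀ k : ℕ, ∀ σ : GQ, σ • (k • Q) = k • Q := by
    intro k σ
    rw [Point.algEquiv_smul_def, map_nsmul, ← Point.algEquiv_smul_def, hQ σ]
  have h120 : (120 : Qb) ∈ ratField := by exact_mod_cast intCast_mem_ratField 120
  unfold velJ velC4 velPi
  refine div_mem (mul_mem (pow_mem (add_mem hc4 (mul_mem h120 (sum_mem fun k _ => ?_))) 3)
    (pow_mem (prod_mem fun k _ => ?_) 4)) (pow_mem hΔ p)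
  · exact (coords_mem_ratField (hk k)).2
  · exact (coords_mem_ratField (hk k)).1

end Rational

/-! ### Valuation calculus (generic value group) -/

section Calc

variable {Γ₀ : Type*} [LinearOrderedCommGroupWithZero Γ₀] (v : Valuation Qb Γ₀)

theorem one_lt_val_a {c4 Δ : Qb} (hc : v c4 = 1) (hΔ : v Δ < 1) (hΔ0 : Δ ≠ 0) :
    1 < v (c4 ^ 3 / Δ) := by
  have h0 : v Δ ≠ 0 := (Valuation.ne_zero_iff _).mpr hΔ0
  rw [map_div₀, map_pow, hc, one_pow, one_div]
  exact (one_lt_inv₀ (zero_lt_iff.mpr h0)).mpr hΔ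

theorem val_a_pow {c4 Δ : Qb} (hc : v c4 = 1) (p : ℕ) :
    v ((c4 ^ 3 / Δ) ^ p) = (v Δ ^ p)⁻¹ := by
  rw [map_pow, map_div₀, map_pow, hc, one_pow, one_div, inv_pow]

theorem val_b {C Pq Δ : Qb} (hC : v C = 1) (p : ℕ) :
    v (C ^ 3 * Pq ^ 4 / Δ ^ p) = v Pq ^ 4 * (v Δ ^ p)⁻¹ := by
  rw [map_div₀, map_mul, map_pow, map_pow, map_pow, hC, one_pow, one_mul, div_eq_mul_inv]

theorem node_calc {c4 Δ C Pq : Qb} (hc : v c4 = 1) (hΔ0 : Δ ≠ 0) (hC : v C = 1)
    (hPq : v Pq < 1) (p : ℕ) :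
    v (C ^ 3 * Pq ^ 4 / Δ ^ p) < v ((c4 ^ 3 / Δ) ^ p) := by
  have h0 : v Δ ≠ 0 := (Valuation.ne_zero_iff _).mpr hΔ0
  rw [val_b v hC, val_a_pow v hc]
  have hpos : (0 : Γ₀) < (v Δ ^ p)⁻¹ := inv_pos.mpr (pow_pos (zero_lt_iff.mpr h0) p)
  have h4 : v Pq ^ 4 < 1 := pow_lt_one₀ zero_le hPq (by norm_num)
  calc v Pq ^ 4 * (v Δ ^ p)⁻¹ < 1 * (v Δ ^ p)⁻¹ := mul_lt_mul_of_pos_right h4 hpos
    _ = (v Δ ^ p)⁻¹ := one_mul _

theorem unit_calc {c4 Δ C Pq : Qb} (hc : v c4 = 1) (hC : v C = 1) (hPq : v Pq = 1) (p : ℕ) :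
    v (C ^ 3 * Pq ^ 4 / Δ ^ p) = v ((c4 ^ 3 / Δ) ^ p) := by
  rw [val_b v hC, val_a_pow v hc, hPq, one_pow, one_mul]

theorem val_add_small {c s : Qb} (hc : v c = 1) (hs : v s < 1) (n : Qb) (hn : v n ≤ 1) :
    v (c + n * s) = 1 := by
  have h : v (n * s) < v c := by
    rw [hc, map_mul]
    calc v n * v s ≤ 1 * v s := mul_le_mul_left hn _
      _ < 1 := by rw [one_mul]; exact hs
  rw [Valuation.map_add_eq_of_lt_left _ h, hc]

theorem val_prod_lt_one {ι : Type*} (s : Finset ι) (f : ι → Qb) {i : ι} (hi : i ∈ s)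
    (h : ∀ k ∈ s, v (f k) < 1) : v (∏ k ∈ s, f k) < 1 := by
  classical
  rw [map_prod, ← Finset.mul_prod_erase _ _ hi]
  have hle : ∏ k ∈ s.erase i, v (f k) ≤ 1 :=
    Finset.prod_le_one' fun k hk => (h k (Finset.mem_of_mem_erase hk)).le
  calc v (f i) * ∏ k ∈ s.erase i, v (f k) ≤ v (f i) * 1 := mul_le_mul_right hle _
    _ < 1 := by rw [mul_one]; exact h i hi

end Calc

/-! ### The assembly -/

section Assembly

variable {p : ℕ} [NeZero p]

theorem xMod_of_contracts (hp : p.Prime) (cZ : Place Qb (FF p))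
    (hex : ∀ q : ℕ, q.Prime → ∃ A : ValuationSubring Qb, A.LiesOverPrime q)
    (hG : ModGlobal p) (hNode : ModLocNode) (hNsmul : ZeroCompNsmul) (hUnit : ModLocUnit p)
    (hNP : NPDich p) (hPP : PPFixed p) : XMod p cZ := by
  intro W hΔ Q hQfix hQord hmult
  -- the coefficients
  have hc4 : ((W.map (Int.castRingHom ℚ))⁄Qb).c₄ = ((W.c₄ : ℤ) : Qb) := by
    rw [show ((W.map (Int.castRingHom ℚ))⁄Qb).c₄ =
      algebraMap ℚ Qb (W.map (Int.castRingHom ℚ)).c₄ from WeierstrassCurve.map_c₄ _ _,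
      WeierstrassCurve.map_c₄]
    simp
  have hΔE : ((W.map (Int.castRingHom ℚ))⁄Qb).Δ = ((W.Δ : ℤ) : Qb) := by
    rw [show ((W.map (Int.castRingHom ℚ))⁄Qb).Δ =
      algebraMap ℚ Qb (W.map (Int.castRingHom ℚ)).Δ from WeierstrassCurve.map_Δ _ _,
      WeierstrassCurve.map_Δ]
    simp
  have hΔ0 : ((W.map (Int.castRingHom ℚ))⁄Qb).Δ ≠ 0 := by
    rw [hΔE]
    exact_mod_cast hΔ
  -- the place
  obtain ⟨x, hxa, hxb⟩ := hG ((W.map (Int.castRingHom ℚ))⁄Qb) hΔ0 Q hQord
  -- valuations at a multiplicative prime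
  have key : ∀ q : ℕ, q.Prime → (q : ℤ) ∣ W.Δ → ¬ (q : ℤ) ∣ W.c₄ →
      ∀ A : ValuationSubring Qb, A.LiesOverPrime q →
        A.valuation ((W.map (Int.castRingHom ℚ))⁄Qb).c₄ = 1 ∧
          A.valuation ((W.map (Int.castRingHom ℚ))⁄Qb).Δ < 1 := by
    intro q hq hqΔ hqc A hA
    constructor
    · rw [hc4, Fermat.Agent.S13.GalRat.valuation_intCast_eq_pow A hq hA
        (fun h => hqc (by rw [h]; exact dvd_zero _))]
      have : padicValInt q W.c₄ = 0 := padicValInt.eq_zero_of_not_dvd hqc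
      rw [this, pow_zero]
    · rw [hΔE]
      obtain ⟨d, hd⟩ := hqΔ
      rw [hd]
      push_cast
      rw [map_mul]
      have hq1 : A.valuation (q : Qb) < 1 := A.mem_nonunits_iff.mp hA
      have hd1 : A.valuation (d : Qb) ≤ 1 :=
        (ValuationSubring.valuation_le_one_iff A _).mpr (intCast_mem _ d)
      calc A.valuation (q : Qb) * A.valuation (d : Qb) ≤ A.valuation (q : Qb) * 1 :=
            mul_le_mul_right hd1 _
        _ < 1 := by rw [mul_one]; exact hq1
  have haA : ∀ q : ℕ, q.Prime → (q : ℤ) ∣ W.Δ → ¬ (q : ℤ) ∣ W.c₄ →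
      ∀ A : ValuationSubring Qb, A.LiesOverPrime q →
        ((W.map (Int.castRingHom ℚ))⁄Qb).c₄ ^ 3 / ((W.map (Int.castRingHom ℚ))⁄Qb).Δ ∉ A := by
    intro q hq hqΔ hqc A hA hmem
    obtain ⟨h1, h2⟩ := key q hq hqΔ hqc A hA
    have := (ValuationSubring.valuation_le_one_iff A _).mpr hmem
    exact absurd this (not_le.mpr (one_lt_val_a A.valuation h1 h2 hΔ0))
  -- the Galois action
  have hxfix : PlaceFixed p x := by
    obtain ⟨q, hq, -, hqΔ, hqc⟩ := hmult
    obtain ⟨A, hA⟩ := hex q hq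
    have h1 := haA q hq hqΔ hqc A hA
    obtain ⟨-, -, -, -, hc4r, hΔr⟩ := coeff_mem_ratField W
    obtain ⟨a', ha'⟩ := mem_ratField_iff.mp (div_mem (pow_mem hc4r 3) hΔr)
    obtain ⟨b', hb'⟩ := mem_ratField_iff.mp (velJ_mem_ratField hQfix p)
    refine hPP x a' b' (by rw [ha']; exact hxa) (by rw [hb']; exact hxb) ⟨A, ?_⟩
    rw [ha']
    exact h1
  refine ⟨x, hxfix, ?_⟩
  intro q hq hqp hqΔ hqc A hA
  obtain ⟨hc1, hΔ1⟩ := key q hq hqΔ hqc A hA
  have haA' := haA q hq hqΔ hqc A hA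
  constructor
  · -- the node case
    intro hQ0
    right
    refine ⟨_, _, hxa, hxb, haA', ?_⟩
    -- all multiples are outside the identity component
    have hk0 : ∀ k ∈ Finset.Ico 1 p, ¬ W.InZeroComponentAt A (k • Q) := by
      intro k hk hin
      rw [Finset.mem_Ico] at hk
      have hcop : Nat.Coprime k p := by
        rw [Nat.coprime_comm]
        exact (Nat.Prime.coprime_iff_not_dvd hp).mpr
          (fun h => absurd (Nat.le_of_dvd (by omega) h) (by omega))
      obtain ⟨k', -, hk'⟩ := Nat.exists_mul_mod_eq_one_of_coprime hcop hp.one_lt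
      have h1 := hNsmul W A (k • Q) k' hin
      rw [smul_smul] at h1
      have h2 : (k' * k) • Q = Q := by
        have hp0 : p • Q = 0 := by rw [← hQord]; exact addOrderOf_nsmul_eq_zero Q
        have hkk : k' * k = 1 + (k * k' / p) * p := by
          rw [mul_comm k' k, mul_comm (k * k' / p) p]
          conv_lhs => rw [← Nat.mod_add_div (k * k') p, hk']
        rw [hkk, add_smul, one_smul, mul_smul, hp0, nsmul_zero, add_zero]
      rw [h2] at h1
      exact hQ0 h1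
    have hC4 : A.valuation (velC4 p Q) = 1 := by
      unfold velC4
      refine val_add_small A.valuation hc1 ?_ 120
        ((ValuationSubring.valuation_le_one_iff A _).mpr (by exact_mod_cast intCast_mem A 120))
      exact Valuation.map_sum_lt _ one_ne_zero fun k hk => (hNode W A (k • Q) (hk0 k hk)).2
    have hPi : A.valuation (velPi p Q) < 1 := by
      unfold velPi
      exact val_prod_lt_one A.valuation _ _ (Finset.mem_Ico.mpr ⟨le_refl _, hp.one_lt⟩)
        fun k hk => (hNode W A (k • Q) (hk0 k hk)).1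
    -- `|b| < |a|^p`
    have hlt := node_calc A.valuation hc1 hΔ0 hC4 hPi p
    rcases hNP x _ _ hxa hxb A haA' with h | h
    · exact absurd h hlt.ne
    · exact h
  · -- the unit case
    intro hQ0
    right
    refine ⟨_, _, hxa, hxb, haA', ?_⟩
    obtain ⟨hψ, hC4⟩ := hUnit W q hq hqp hqΔ hqc A hA Q hQord hQ0
    have hPi : A.valuation (velPi p Q) = 1 := by
      unfold velPi
      rw [map_prod]
      exact Finset.prod_eq_one hψ
    exact unit_calc A.valuation hc1 hC4 hPi p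

end Assembly

end Fermat.Agent.MAZ.Point.ModAsm62
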