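/-
Program MAZ (S15), brick X-HECKE, part 1 (helper90): THE ORDERED-GROUP CORE.

`Γ` a linearly ordered commutative group with zero (the value group of a valuation subring of
`ℚbar`).  If `(s, β)` are the absolute values of `(j_m, j_{pm})` at a place `w` of `X₀(pm)` lying in
the tube of the cusp `0` (`β ^ p = s`, `1 < β`), resp. of `∞` (`β = s ^ p`, `1 < s`), and `(u, w)`
those of `(j, j_p)`, then the three Newton dichotomies

  `u = s ^ m ∨ u ^ m = s`   (from `Φ_m(j, j_m) = 0`),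
  `w = β ^ m ∨ w ^ m = β`   (from `Φ_m(j_p, j_{pm}) = 0`),
  `w = u ^ p ∨ w ^ p = u`   (from `Φ_p(j_p, j) = 0`)

force `(u, w)` into the same tube, as soon as `p ≠ m`.  Mathlib only.
-/
import Mathlib

set_option autoImplicit false

namespace Fermat.Agent.MAZ.Point.TubeOrd90

variable {Γ : Type*} [LinearOrderedCommGroupWithZero Γ]

theorem one_lt_of_one_lt_pow {x : Γ} {n : ℕ} (h : 1 < x ^ n) : 1 < x := by
  by_contra hx
  rw [not_lt] at hx
  exact absurd h (not_lt.mpr (pow_le_one₀ zero_le hx))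

theorem one_lt_of_dichotomy {s u : Γ} {m : ℕ} (hm : m ≠ 0) (hs : 1 < s)
    (h1 : u = s ^ m ∨ u ^ m = s) : 1 < u := by
  rcases h1 with h1 | h1
  · rw [h1]; exact one_lt_pow₀ hs hm
  · exact one_lt_of_one_lt_pow (h1 ▸ hs)

theorem pow_inj_of_one_lt {x : Γ} (hx : 1 < x) {a b : ℕ} (h : x ^ a = x ^ b) : a = b :=
  pow_right_injective₀ (lt_trans zero_lt_one hx) (ne_of_gt hx) h

theorem eq_of_pow_eq {x y : Γ} {n : ℕ} (hn : n ≠ 0) (h : x ^ n = y ^ n) : x = y :=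
  (pow_left_inj₀ zero_le zero_le hn).mp h

theorem sq_mul_sq_ne_one {p m : ℕ} (hpm : p ≠ m) : p * p * (m * m) ≠ 1 := by
  intro h
  have h1 : p * p = 1 := Nat.eq_one_of_mul_eq_one_right h
  have h2 : m * m = 1 := Nat.eq_one_of_mul_eq_one_left h
  have hp : p = 1 := Nat.eq_one_of_mul_eq_one_right h1
  have hm : m = 1 := Nat.eq_one_of_mul_eq_one_right h2
  exact hpm (hp.trans hm.symm)

theorem sq_ne_sq {p m : ℕ} (hpm : p ≠ m) : p * p ≠ m * m := fun h =>
  hpm (Nat.mul_self_inj.mp h)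

/-- **The tube of the cusp `0` is stable.** -/
theorem tubeZero_transfer {s β u w : Γ} {p m : ℕ} (hp : p ≠ 0) (hm : m ≠ 0) (hpm : p ≠ m)
    (hβ : 1 < β) (hs : β ^ p = s) (h1 : u = s ^ m ∨ u ^ m = s) (h2 : w = β ^ m ∨ w ^ m = β)
    (h3 : w = u ^ p ∨ w ^ p = u) : 1 < u ∧ w ^ p = u := by
  have hs1 : 1 < s := hs ▸ one_lt_pow₀ hβ hp
  refine ⟨one_lt_of_dichotomy hm hs1 h1, ?_⟩
  rcases h3 with h3 | h3
  swap
  · exact h3
  rcases h1 with h1 | h1 <;> rcases h2 with h2 | h2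
  · -- `u = β^(pm)`, `w = β^m`
    rw [h2, h1, ← hs, ← pow_mul, ← pow_mul, mul_comm]
  · -- `u = β^(pm)`, `w^m = β`, `w = u^p`: `β = β^(p²m²)`
    exfalso
    have e : β ^ (p * p * (m * m)) = β ^ 1 := by
      rw [pow_one]
      conv_rhs => rw [← h2, h3, h1, ← hs]
      rw [← pow_mul, ← pow_mul, ← pow_mul]
      congr 1
      ring
    exact sq_mul_sq_ne_one hpm (pow_inj_of_one_lt hβ e)
  · -- `u^m = β^p`, `w = β^m`, `w = u^p`: `β^(p²) = β^(m²)`
    exfalso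
    have e : β ^ (p * p) = β ^ (m * m) := by
      have e1 : w ^ m = β ^ (p * p) := by
        rw [h3, ← pow_mul, mul_comm, pow_mul, h1, ← hs, ← pow_mul]
      have e2 : w ^ m = β ^ (m * m) := by rw [h2, ← pow_mul]
      rw [← e1, e2]
    exact sq_ne_sq hpm (pow_inj_of_one_lt hβ e)
  · -- `u^m = β^p`, `w^m = β`
    apply eq_of_pow_eq hm
    rw [← pow_mul, mul_comm, pow_mul, h2, hs, h1]

/-- **The tube of the cusp `∞` is stable.** -/
theorem tubeInf_transfer {s β u w : Γ} {p m : ℕ} (_hp : p ≠ 0) (hm : m ≠ 0) (hpm : p ≠ m)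
    (hs : 1 < s) (hβ : β = s ^ p) (h1 : u = s ^ m ∨ u ^ m = s) (h2 : w = β ^ m ∨ w ^ m = β)
    (h3 : w = u ^ p ∨ w ^ p = u) : 1 < u ∧ w = u ^ p := by
  refine ⟨one_lt_of_dichotomy hm hs h1, ?_⟩
  rcases h3 with h3 | h3
  · exact h3
  rcases h1 with h1 | h1 <;> rcases h2 with h2 | h2
  · -- `u = s^m`, `w = s^(pm)`
    rw [h2, h1, hβ, ← pow_mul, ← pow_mul, mul_comm]
  · -- `u = s^m`, `w^m = s^p`, `w^p = s^m`: `s^(m²) = s^(p²)`
    exfalso
    have e : s ^ (p * p) = s ^ (m * m) := by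
      have e1 : w ^ (p * m) = s ^ (m * m) := by rw [pow_mul, h3, h1, ← pow_mul]
      have e2 : w ^ (p * m) = s ^ (p * p) := by
        rw [mul_comm, pow_mul, h2, hβ, ← pow_mul]
      rw [← e2, e1]
    exact sq_ne_sq hpm (pow_inj_of_one_lt hs e)
  · -- `u^m = s`, `w = s^(pm)`, `w^p = u`: `s^(p²m²) = s`
    exfalso
    have e : s ^ (p * p * (m * m)) = s ^ 1 := by
      rw [pow_one]
      conv_rhs => rw [← h1, ← h3, h2, hβ]
      rw [← pow_mul, ← pow_mul, ← pow_mul]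
      congr 1
      ring
    exact sq_mul_sq_ne_one hpm (pow_inj_of_one_lt hs e)
  · -- `u^m = s`, `w^m = s^p`
    apply eq_of_pow_eq hm
    rw [h2, hβ, ← h1, ← pow_mul, ← pow_mul, mul_comm]

end Fermat.Agent.MAZ.Point.TubeOrd90
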