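/-
Program MAZ (S15), brick X-HECKE, part 2 (helper90): THE TUBES ARE HECKE STABLE.

`XSpec62.XHecke p cZ` (for `cZ` the cusp `0`) from the Newton dichotomies of the modular polynomials
at the level `p m`, packaged as `LinkPkg M d e n` for the pair `(j_d, j_e)` of `FF M` (`e = d n`):

* `nonneg_down / nonneg_up` : `j_d` and `j_e` are integral over each other (`Φ_n` is monic both ways);
* `dich_down / dich_up`     : if `a, a'` are the values of `j_e, j_d` at a place and `|a|_A > 1`
  (resp. `|a'|_A > 1`) then `|a'| = |a|^n ∨ |a'|^n = |a|` (resp. the same with the roles swapped).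

PROOF of `xHecke`.  `T_m [x] = Σ_{w ↦ x along β} e(w) [w|_α]` (`PointFormula28.correspondence_single`);
for a place `w` of `FF (p m)`, the values of `(j, j_p)` at `w|_β` are those of `(j_m, j_{pm})` at `w`
and the values of `(j, j_p)` at `w|_α` are those of `(j, j_p)` at `w` (`Place.ord_restrictAlong`);
three dichotomies (`(j, j_m)`, `(j_p, j_{pm})`, `(j, j_p)`) and `TubeOrd90`.  At the cusps:
helper71's `CuspHecke71.restrictAlong_alpha_eq`.
-/
import Mathlib
import Fermat.Agent.MAZ.Spec.XSpec62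
import Fermat.Agent.MAZ.Hecke.CuspHecke71
import Fermat.Agent.MAZ.Cusp.CuspPlaces55
import Fermat.Agent.MAZ.Point.TubeOrd90
import Fermat.Agent.ES.HECKE.PointFormula28
import Fermat.Agent.ES.KRON.Conjugates11
import Fermat.Agent.RED.TOP.ConstViaR20
import Fermat.Agent.RED.TOP.FbarFacts20

set_option autoImplicit false
set_option linter.unusedSectionVars false
set_option linter.style.haveILetI false

open AlgebraicCurve ModularCurve

noncomputable section

namespace Fermat.Agent.MAZ.Point.TubeHecke90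

open Fermat.Agent.X0 Fermat.Agent.MAZ.Spec.XSpec62 Fermat.Agent.MAZ.Point.TubeOrd90
open Fermat.Agent.MAZ.Hecke.CuspVal71 Fermat.Agent.MAZ.Hecke.CuspHecke71

/-! ### Generalities on values -/

section General

variable {K F F' : Type*} [Field K] [Field F] [Field F'] [Algebra K F] [Algebra K F']

/-- values at `w|_φ` are values of `φ f` at `w`. -/
theorem ord_sub_restrictAlong_pos_iff (φ : F →ₐ[K] F') (hφ : φ.toRingHom.IsIntegral)
    (w : Place K F') (f : F) (a : K) :
    0 < (w.restrictAlong φ hφ).ord (f - algebraMap K F a) ↔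
      0 < w.ord (φ f - algebraMap K F' a) := by
  have he : (0 : ℤ) < (w.ramificationIndexAlong φ : ℤ) := by
    exact_mod_cast ramificationIndexAlong_pos φ hφ w
  have h := Place.ord_restrictAlong φ hφ w (f - algebraMap K F a)
  rw [map_sub, AlgHom.commutes] at h
  rw [h]
  constructor
  · intro h1; exact mul_pos he h1
  · intro h1
    by_contra hn
    have : (w.restrictAlong φ hφ).ord (f - algebraMap K F a) ≤ 0 := not_lt.mp hn
    nlinarith

/-- a function with a value at a place has nonnegative order there. -/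
theorem ord_nonneg_of_value (v : Place K F) {f : F} {a : K}
    (h : 0 < v.ord (f - algebraMap K F a)) : 0 ≤ v.ord f := by
  apply FF.ffp_ord_nonneg_of_mem
  have h1 : f - algebraMap K F a ∈ v.toValuationSubring := FF.ffp_mem_of_ord_nonneg v h.le
  have h2 : algebraMap K F a ∈ v.toValuationSubring :=
    FF.ffp_mem_of_ord_nonneg v (FF.ffp_ord_algebraMap v a).ge
  have := add_mem h1 h2
  rwa [sub_add_cancel] at this

end General

/-! ### The link package -/

/-- **The Newton package** of the pair `(j_d, j_e)` of `FF M` with exponent `n` (`e = d n`). -/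
structure LinkPkg (M d e n : ℕ) [NeZero M] [NeZero d] [NeZero e] (hd : d ∣ M) (he : e ∣ M) :
    Prop where
  nonneg_down : ∀ w : Place Qb (FF M), 0 ≤ w.ord (jdF M e he) → 0 ≤ w.ord (jdF M d hd)
  nonneg_up : ∀ w : Place Qb (FF M), 0 ≤ w.ord (jdF M d hd) → 0 ≤ w.ord (jdF M e he)
  dich_down : ∀ (A : ValuationSubring Qb) (w : Place Qb (FF M)) (a a' : Qb),
    HasValue w (jdF M e he) a → HasValue w (jdF M d hd) a' → a ∉ A →
      A.valuation a' = A.valuation a ^ n ∨ A.valuation a' ^ n = A.valuation a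
  dich_up : ∀ (A : ValuationSubring Qb) (w : Place Qb (FF M)) (a a' : Qb),
    HasValue w (jdF M e he) a → HasValue w (jdF M d hd) a' → a' ∉ A →
      A.valuation a = A.valuation a' ^ n ∨ A.valuation a ^ n = A.valuation a'

section Values

variable (M : ℕ) [NeZero M]

/-- `j_d` is not a constant. -/
theorem jdF_ne_algebraMap (d : ℕ) [NeZero d] (hd : d ∣ M) (c : Qb) :
    jdF M d hd ≠ algebraMap Qb (FF M) c := by
  intro h
  have h1 := Fermat.Agent.MAZ.Cusp.CuspPlaces55.cuspInf_ord_jdF M d hd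
  rw [h, FF.ffp_ord_algebraMap] at h1
  have : (d : ℤ) = 0 := by linarith
  exact NeZero.ne d (by exact_mod_cast this)

/-- a `j_d` of nonnegative order at a place has a value there. -/
theorem exists_value (d : ℕ) [NeZero d] (hd : d ∣ M) (w : Place Qb (FF M))
    (h : 0 ≤ w.ord (jdF M d hd)) : ∃ a : Qb, HasValue w (jdF M d hd) a := by
  obtain ⟨c, hc | hc⟩ := Fermat.Agent.RED.TOP.ConstViaR20.exists_const_of_deg_eq_one w
    (Fermat.Agent.RED.TOP.FbarFacts20.deg_eq_one_bar M w) (FF.ffp_mem_of_ord_nonneg w h)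
  · exact absurd hc (jdF_ne_algebraMap M d hd c)
  · exact ⟨c, hc⟩

end Values

theorem not_mem_iff_one_lt (A : ValuationSubring Qb) (a : Qb) : a ∉ A ↔ 1 < A.valuation a := by
  rw [← not_le, A.valuation_le_one_iff]

/-! ### The core at the level `p m` -/

section Core

variable {p m : ℕ} [NeZero p] [NeZero m]

/-- the three link packages at the level `p m`. -/
structure Links (p m : ℕ) [NeZero p] [NeZero m] : Prop where
  l1 : LinkPkg (p * m) 1 m m (one_dvd _) (dvd_mul_left m p)
  l2 : LinkPkg (p * m) p (p * m) m (dvd_mul_right p m) dvd_rfl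
  l3 : LinkPkg (p * m) 1 p p (one_dvd _) (dvd_mul_right p m)

variable (hL : Links p m) (hpm : p ≠ m) (A : ValuationSubring Qb) (w : Place Qb (FF (p * m)))
include hL hpm

theorem core_zero {a b : Qb} (hja : HasValue w (jdF (p * m) m (dvd_mul_left m p)) a)
    (hjb : HasValue w (jdF (p * m) (p * m) dvd_rfl) b) (ha : a ∉ A)
    (hv : A.valuation (b ^ p) = A.valuation a) :
    ∃ a' b' : Qb, HasValue w (jdF (p * m) 1 (one_dvd _)) a' ∧
      HasValue w (jdF (p * m) p (dvd_mul_right p m)) b' ∧ a' ∉ A ∧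
      A.valuation (b' ^ p) = A.valuation a' := by
  have hp0 : p ≠ 0 := NeZero.ne p
  have hm0 : m ≠ 0 := NeZero.ne m
  rw [map_pow] at hv
  have ha1 : 1 < A.valuation a := (not_mem_iff_one_lt A a).mp ha
  have hb1 : 1 < A.valuation b := one_lt_of_one_lt_pow (hv ▸ ha1)
  have hb : b ∉ A := (not_mem_iff_one_lt A b).mpr hb1
  obtain ⟨a', ha'⟩ := exists_value (p * m) 1 (one_dvd _) w
    (hL.l1.nonneg_down w (ord_nonneg_of_value w hja))
  obtain ⟨b', hb'⟩ := exists_value (p * m) p (dvd_mul_right p m) w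
    (hL.l2.nonneg_down w (ord_nonneg_of_value w hjb))
  have h1 := hL.l1.dich_down A w a a' hja ha' ha
  have h2 := hL.l2.dich_down A w b b' hjb hb' hb
  have hu1 : 1 < A.valuation a' := one_lt_of_dichotomy hm0 ha1 h1
  have ha'A : a' ∉ A := (not_mem_iff_one_lt A a').mpr hu1
  have h3 := hL.l3.dich_up A w b' a' hb' ha' ha'A
  obtain ⟨-, h4⟩ := tubeZero_transfer hp0 hm0 hpm hb1 hv h1 h2 h3
  exact ⟨a', b', ha', hb', ha'A, by rw [map_pow]; exact h4⟩

theorem core_inf {a b : Qb} (hja : HasValue w (jdF (p * m) m (dvd_mul_left m p)) a)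
    (hjb : HasValue w (jdF (p * m) (p * m) dvd_rfl) b) (ha : a ∉ A)
    (hv : A.valuation b = A.valuation (a ^ p)) :
    ∃ a' b' : Qb, HasValue w (jdF (p * m) 1 (one_dvd _)) a' ∧
      HasValue w (jdF (p * m) p (dvd_mul_right p m)) b' ∧ a' ∉ A ∧
      A.valuation b' = A.valuation (a' ^ p) := by
  have hp0 : p ≠ 0 := NeZero.ne p
  have hm0 : m ≠ 0 := NeZero.ne m
  rw [map_pow] at hv
  have ha1 : 1 < A.valuation a := (not_mem_iff_one_lt A a).mp ha
  have hb1 : 1 < A.valuation b := hv ▸ one_lt_pow₀ ha1 hp0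
  have hb : b ∉ A := (not_mem_iff_one_lt A b).mpr hb1
  obtain ⟨a', ha'⟩ := exists_value (p * m) 1 (one_dvd _) w
    (hL.l1.nonneg_down w (ord_nonneg_of_value w hja))
  obtain ⟨b', hb'⟩ := exists_value (p * m) p (dvd_mul_right p m) w
    (hL.l2.nonneg_down w (ord_nonneg_of_value w hjb))
  have h1 := hL.l1.dich_down A w a a' hja ha' ha
  have h2 := hL.l2.dich_down A w b b' hjb hb' hb
  have hu1 : 1 < A.valuation a' := one_lt_of_dichotomy hm0 ha1 h1
  have ha'A : a' ∉ A := (not_mem_iff_one_lt A a').mpr hu1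
  have h3 := hL.l3.dich_up A w b' a' hb' ha' ha'A
  obtain ⟨-, h4⟩ := tubeInf_transfer hp0 hm0 hpm ha1 hv h1 h2 h3
  exact ⟨a', b', ha', hb', ha'A, by rw [map_pow]; exact h4⟩

end Core

/-! ### The degeneracy maps on the `j_d` -/

section Degeneracy

open Fermat.Agent.ES.KRON.Conjugates11

variable (p m : ℕ) [NeZero p] [NeZero m]

theorem beta_jF' : heckeBetaBar Qb p m (jF p) = jdF (p * m) m (dvd_mul_left m p) := by
  apply Subtype.ext
  rw [coe_heckeBetaBar]
  unfold jF
  rw [coe_jdF_eq, coe_jdF_eq, qExpand_qExpand]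
  exact qExpand_congr (mul_one m) jqK

theorem beta_jpF' : heckeBetaBar Qb p m (jpF p) = jdF (p * m) (p * m) dvd_rfl := by
  apply Subtype.ext
  rw [coe_heckeBetaBar]
  unfold jpF
  rw [coe_jdF_eq, coe_jdF_eq, qExpand_qExpand]
  exact qExpand_congr (mul_comm m p) jqK

theorem alpha_jF' : heckeAlphaBar Qb p m (jF p) = jdF (p * m) 1 (one_dvd _) := by
  apply Subtype.ext
  rw [coe_heckeAlphaBar]
  unfold jF
  rw [coe_jdF_eq, coe_jdF_eq]

theorem alpha_jpF' : heckeAlphaBar Qb p m (jpF p) = jdF (p * m) p (dvd_mul_right p m) := by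
  apply Subtype.ext
  rw [coe_heckeAlphaBar]
  unfold jpF
  rw [coe_jdF_eq, coe_jdF_eq]

end Degeneracy

/-! ### The support of `T_m [x]` -/

section Support

variable {p m : ℕ} [NeZero p] [NeZero m]

theorem exists_place_of_correspondence_ne_zero {K F F' : Type*} [Field K] [Field F] [Field F']
    [Algebra K F] [Algebra K F'] [HasPrincipalDivisors K F']
    (φ ψ : F →ₐ[K] F') (hφ : φ.toRingHom.IsIntegral) (hψ : ψ.toRingHom.IsIntegral)
    (x y : Place K F) (h : Divisor.correspondence φ ψ hφ hψ (Finsupp.single x 1) y ≠ 0) :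
    ∃ w : Place K F', w.restrictAlong φ hφ = x ∧ w.restrictAlong ψ hψ = y := by
  classical
  rw [Fermat.Agent.ES.HECKE.PointFormula28.correspondence_single, Finsupp.finsetSum_apply] at h
  obtain ⟨w, hw, hne⟩ := Finset.exists_ne_zero_of_sum_ne_zero h
  rw [Place.mem_fiberAlong] at hw
  refine ⟨w, hw, ?_⟩
  by_contra hwy
  exact hne (Finsupp.single_eq_of_ne (Ne.symm hwy))

theorem exists_place_of_heckeDivBar_ne_zero (hα : HeckeAlphaBarIntegral Qb p m)
    (hβ : HeckeBetaBarIntegral Qb p m)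
    [HasPrincipalDivisors Qb (laurentBaseChange Qb (modularFunctionFieldFull (p * m)))]
    (x y : Place Qb (FF p)) (h : heckeDivBar hα hβ (Finsupp.single x 1) y ≠ 0) :
    ∃ w : Place Qb (FF (p * m)), w.restrictAlong (heckeBetaBar Qb p m) hβ = x ∧
      w.restrictAlong (heckeAlphaBar Qb p m) hα = y :=
  exists_place_of_correspondence_ne_zero (heckeBetaBar Qb p m) (heckeAlphaBar Qb p m) hβ hα x y h

end Support

/-! ### The main theorem -/

section Main

variable {p : ℕ} [NeZero p]

/-- the cusp `∞` of `XSpec62` is helper71's `placeInfty`. -/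
theorem cuspInf_eq_placeInfty (hp : p.Prime) : cuspInf p = placeInfty p := by
  have h1 : (cuspInf p).ord (jF p) = -1 :=
    Fermat.Agent.MAZ.Cusp.CuspPlaces55.cuspInf_ord_jF p
  have h2 : (cuspInf p).ord (jNF p) = -(p : ℤ) :=
    Fermat.Agent.MAZ.Cusp.CuspPlaces55.cuspInf_ord_jdF p p dvd_rfl
  refine eq_placeInfty_of p hp _ (by rw [h1]; norm_num) ?_
  rw [h1, h2]; ring

/-- a place with the orders of the cusp `0` is helper71's `placeZero`. -/
theorem eq_placeZero_of_isCuspZero (hp : p.Prime) {cZ : Place Qb (FF p)} (h : IsCuspZero p cZ) :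
    cZ = placeZero p := by
  obtain ⟨h1, h2⟩ := h
  have hp0 : (0 : ℤ) < p := by exact_mod_cast hp.pos
  refine eq_placeZero_of p hp cZ (by rw [h1]; linarith) ?_
  show (p : ℤ) * cZ.ord (jpF p) = cZ.ord (jF p)
  rw [h1, h2]; ring

/-- **(X-HECKE)**: the tubes of the two cusps are stable under the Hecke correspondences `T_m`,
`m ≠ p`, given the Newton packages at the levels `p m`. -/
theorem xHecke (hp : p.Prime) {cZ : Place Qb (FF p)} (hcZ : IsCuspZero p cZ)
    (hL : ∀ (m : ℕ) [NeZero m], m.Prime → m ≠ p → Links p m) : XHecke p cZ := by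
  intro m _ hm hmp hα hβ _ q _ _ A _ x y hxy
  obtain ⟨w, hwx, hwy⟩ := exists_place_of_heckeDivBar_ne_zero hα hβ x y hxy
  have hZ := eq_placeZero_of_isCuspZero hp hcZ
  have hI := cuspInf_eq_placeInfty hp
  have hcusp := restrictAlong_alpha_eq p m hp hm (Ne.symm hmp) hα hβ w
  have hLm := hL m hm hmp
  have hpm : p ≠ m := Ne.symm hmp
  -- values at `x`, `y` in terms of `w`
  have vx1 : ∀ a : Qb, HasValue x (jF p) a ↔
      HasValue w (jdF (p * m) m (dvd_mul_left m p)) a := fun a => by
    have h := ord_sub_restrictAlong_pos_iff (heckeBetaBar Qb p m) hβ w (jF p) a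
    rw [beta_jF'] at h
    rw [← hwx]
    exact h
  have vx2 : ∀ b : Qb, HasValue x (jpF p) b ↔
      HasValue w (jdF (p * m) (p * m) dvd_rfl) b := fun b => by
    have h := ord_sub_restrictAlong_pos_iff (heckeBetaBar Qb p m) hβ w (jpF p) b
    rw [beta_jpF'] at h
    rw [← hwx]
    exact h
  have vy1 : ∀ a : Qb, HasValue y (jF p) a ↔
      HasValue w (jdF (p * m) 1 (one_dvd _)) a := fun a => by
    have h := ord_sub_restrictAlong_pos_iff (heckeAlphaBar Qb p m) hα w (jF p) a
    rw [alpha_jF'] at h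
    rw [← hwy]
    exact h
  have vy2 : ∀ b : Qb, HasValue y (jpF p) b ↔
      HasValue w (jdF (p * m) p (dvd_mul_right p m)) b := fun b => by
    have h := ord_sub_restrictAlong_pos_iff (heckeAlphaBar Qb p m) hα w (jpF p) b
    rw [alpha_jpF'] at h
    rw [← hwy]
    exact h
  constructor
  · rintro (hx | ⟨a, b, hja, hjb, ha, hv⟩)
    · left
      rw [hZ] at hx ⊢
      rw [← hwy]
      exact hcusp.2 (hwx.trans hx)
    · right
      obtain ⟨a', b', h1, h2, h3, h4⟩ :=
        core_zero hLm hpm A w ((vx1 a).mp hja) ((vx2 b).mp hjb) ha hv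
      exact ⟨a', b', (vy1 a').mpr h1, (vy2 b').mpr h2, h3, h4⟩
  · rintro (hx | ⟨a, b, hja, hjb, ha, hv⟩)
    · left
      rw [hI] at hx ⊢
      rw [← hwy]
      exact hcusp.1 (hwx.trans hx)
    · right
      obtain ⟨a', b', h1, h2, h3, h4⟩ :=
        core_inf hLm hpm A w ((vx1 a).mp hja) ((vx2 b).mp hjb) ha hv
      exact ⟨a', b', (vy1 a').mpr h1, (vy2 b').mpr h2, h3, h4⟩

end Main

end Fermat.Agent.MAZ.Point.TubeHecke90
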