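/-
Program MAZ (S15), chapter Point (helper2): FINAL ASSEMBLY OF `XMod` from `NPDich` + `PPFixed` only.

`ModAsm62.xMod_of_contracts` (helper62) with its local and global inputs discharged:
* `ModGlobal p`   := `GlobalFinal42.modGlobal` (helper42),
* `ModLocNode`    := `modLocNode` below, from `ZeroTors28.node_of_not_inZero` (helper28),
* `ModLocUnit p`  := `ModLocUnit2.modLocUnit` (helper2),
* `ZeroCompNsmul` is only used on multiples of a point of order `p ≠ q`: replaced by the torsion form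
  `ZeroTors28.not_inZero_nsmul` (helper28) -- the proof below is helper62's assembly verbatim except
  for that step.
-/
import Mathlib
import Fermat.Agent.MAZ.Point.ModAsm62
import Fermat.Agent.MAZ.Local.ZeroTors28
import Fermat.Agent.MAZ.Local.ModLocUnit2
import Fermat.Agent.MAZ.Analytic.GlobalFinal42

set_option autoImplicit false
set_option linter.unusedSectionVars false
set_option linter.style.haveILetI false

open AlgebraicCurve ModularCurve
open WeierstrassCurve WeierstrassCurve.Affine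

noncomputable section

namespace Fermat.Agent.MAZ.Point.ModAsmFinal2

open Fermat.Agent.X0 Fermat.Agent.MAZ.Spec.XSpec62 Fermat.Agent.MAZ.Point.ModAsm62

/-- **(MOD-LOC, node)**, the contract of `ModAsm62`. -/
theorem modLocNode : ModLocNode := by
  intro W A P hP
  rcases P with _ | ⟨x, y, h⟩
  · exact absurd (Or.inl rfl) hP
  · obtain ⟨-, -, h1, h2⟩ := Fermat.Agent.MAZ.Local.ZeroTors28.node_of_not_inZero h hP
    exact ⟨h1, h2⟩

variable {p : ℕ} [NeZero p]

/-- **`XMod` from the Newton dichotomy and the plane-point contract only.** -/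
theorem xMod_of_NP_PP (hp : p.Prime) (hp2 : p ≠ 2) (cZ : Place Qb (FF p))
    (hex : ∀ q : ℕ, q.Prime → ∃ A : ValuationSubring Qb, A.LiesOverPrime q)
    (hNP : NPDich p) (hPP : PPFixed p) : XMod p cZ := by
  have hG : ModGlobal p := Fermat.Agent.MAZ.Analytic.GlobalFinal42.modGlobal hp hp2

  intro W hΔ Q hQfix hQord hmult
  -- the coefficients
  have hc4 : ((W.map (Int.castRingHom ℚ))⁄Qb).c₄ = ((W.c₄ : ℤ) : Qb) := by
    rw [show ((W.map (Int.castRingHom ℚ))⁄Qb).c₄ =
      algebraMap ℚ Qb (W.map (Int.castRingHom ℚ)).c₄ from WeierstrassCurve.map_c₄ _ _,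
      WeierstrassCurve.map_c₄]
    simp
  have hΔE : ((W.map (Int.castRingHom ℚ))⁄Qb).Δ = ((W.Δ : ℤ) : Qb) := by
    rw [show ((W.map (Int.castRingHom ℚ))⁄Qb).Δ =
      algebraMap ℚ Qb (W.map (Int.castRingHom ℚ)).Δ from WeierstrassCurve.map_Δ _ _,
      WeierstrassCurve.map_Δ]
    simp
  have hΔ0 : ((W.map (Int.castRingHom ℚ))⁄Qb).Δ ≠ 0 := by
    rw [hΔE]
    exact_mod_cast hΔ
  -- the place
  obtain ⟨x, hxa, hxb⟩ := hG ((W.map (Int.castRingHom ℚ))⁄Qb) hΔ0 Q hQord
  -- valuations at a multiplicative prime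
  have key : ∀ q : ℕ, q.Prime → (q : ℤ) ∣ W.Δ → ¬ (q : ℤ) ∣ W.c₄ →
      ∀ A : ValuationSubring Qb, A.LiesOverPrime q →
        A.valuation ((W.map (Int.castRingHom ℚ))⁄Qb).c₄ = 1 ∧
          A.valuation ((W.map (Int.castRingHom ℚ))⁄Qb).Δ < 1 := by
    intro q hq hqΔ hqc A hA
    constructor
    · rw [hc4, Fermat.Agent.S13.GalRat.valuation_intCast_eq_pow A hq hA
        (fun h => hqc (by rw [h]; exact dvd_zero _))]
      have : padicValInt q W.c₄ = 0 := padicValInt.eq_zero_of_not_dvd hqc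
      rw [this, pow_zero]
    · rw [hΔE]
      obtain ⟨d, hd⟩ := hqΔ
      rw [hd]
      push_cast
      rw [map_mul]
      have hq1 : A.valuation (q : Qb) < 1 := A.mem_nonunits_iff.mp hA
      have hd1 : A.valuation (d : Qb) ≤ 1 :=
        (ValuationSubring.valuation_le_one_iff A _).mpr (intCast_mem _ d)
      calc A.valuation (q : Qb) * A.valuation (d : Qb) ≤ A.valuation (q : Qb) * 1 :=
            mul_le_mul_right hd1 _
        _ < 1 := by rw [mul_one]; exact hq1
  have haA : ∀ q : ℕ, q.Prime → (q : ℤ) ∣ W.Δ → ¬ (q : ℤ) ∣ W.c₄ →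
      ∀ A : ValuationSubring Qb, A.LiesOverPrime q →
        ((W.map (Int.castRingHom ℚ))⁄Qb).c₄ ^ 3 / ((W.map (Int.castRingHom ℚ))⁄Qb).Δ ∉ A := by
    intro q hq hqΔ hqc A hA hmem
    obtain ⟨h1, h2⟩ := key q hq hqΔ hqc A hA
    have := (ValuationSubring.valuation_le_one_iff A _).mpr hmem
    exact absurd this (not_le.mpr (one_lt_val_a A.valuation h1 h2 hΔ0))
  -- the Galois action
  have hxfix : PlaceFixed p x := by
    obtain ⟨q, hq, -, hqΔ, hqc⟩ := hmult
    obtain ⟨A, hA⟩ := hex q hq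
    have h1 := haA q hq hqΔ hqc A hA
    obtain ⟨-, -, -, -, hc4r, hΔr⟩ := coeff_mem_ratField W
    obtain ⟨a', ha'⟩ := mem_ratField_iff.mp (div_mem (pow_mem hc4r 3) hΔr)
    obtain ⟨b', hb'⟩ := mem_ratField_iff.mp (velJ_mem_ratField hQfix p)
    refine hPP x a' b' (by rw [ha']; exact hxa) (by rw [hb']; exact hxb) ⟨A, ?_⟩
    rw [ha']
    exact h1
  refine ⟨x, hxfix, ?_⟩
  intro q hq hqp hqΔ hqc A hA
  obtain ⟨hc1, hΔ1⟩ := key q hq hqΔ hqc A hA
  have haA' := haA q hq hqΔ hqc A hA
  constructor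
  · -- the node case
    intro hQ0
    right
    refine ⟨_, _, hxa, hxb, haA', ?_⟩
    -- all multiples are outside the identity component
    have hk0 : ∀ k ∈ Finset.Ico 1 p, ¬ W.InZeroComponentAt A (k • Q) := by
      intro k hk
      rw [Finset.mem_Ico] at hk
      have hp0 : p • Q = 0 := by rw [← hQord]; exact addOrderOf_nsmul_eq_zero Q
      exact Fermat.Agent.MAZ.Local.ZeroTors28.not_inZero_nsmul hp hp2
        (Fermat.Agent.MAZ.Local.ZeroTors28.valuation_prime_eq_one hp hq hqp hA) hp0 hQ0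
        (fun h => absurd (Nat.le_of_dvd (by omega) h) (by omega))
    have hC4 : A.valuation (velC4 p Q) = 1 := by
      unfold velC4
      refine val_add_small A.valuation hc1 ?_ 120
        ((ValuationSubring.valuation_le_one_iff A _).mpr (by exact_mod_cast intCast_mem A 120))
      exact Valuation.map_sum_lt _ one_ne_zero fun k hk => (modLocNode W A (k • Q) (hk0 k hk)).2
    have hPi : A.valuation (velPi p Q) < 1 := by
      unfold velPi
      exact val_prod_lt_one A.valuation _ _ (Finset.mem_Ico.mpr ⟨le_refl _, hp.one_lt⟩)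
        fun k hk => (modLocNode W A (k • Q) (hk0 k hk)).1
    -- `|b| < |a|^p`
    have hlt := node_calc A.valuation hc1 hΔ0 hC4 hPi p
    rcases hNP x _ _ hxa hxb A haA' with h | h
    · exact absurd h hlt.ne
    · exact h
  · -- the unit case
    intro hQ0
    right
    refine ⟨_, _, hxa, hxb, haA', ?_⟩
    obtain ⟨hψ, hC4⟩ := Fermat.Agent.MAZ.Local.ModLocUnit2.modLocUnit hp hp2 W q hq hqp hqΔ hqc A hA Q hQord hQ0
    have hPi : A.valuation (velPi p Q) = 1 := by
      unfold velPi
      rw [map_prod]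
      exact Finset.prod_eq_one hψ
    exact unit_calc A.valuation hc1 hC4 hPi p

end Fermat.Agent.MAZ.Point.ModAsmFinal2
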