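/-
Program MAZ (S15), X-side, brick PP (helper82), modular instance.

For a prime `p` the function field `FF p = ℚ̄(j, j_p)` of `X₀(p)` is generated by `jF p` and
`jdF p p`; both are fixed by the arithmetic Galois action.  Hence (`PlanePoint82`): if
`Φ(j, j_p) = 0` and `(a, b)` is a nonsingular point of `Φ = 0` with Galois-fixed (e.g. rational)
coordinates, the place `x` with `j(x) = a`, `j_p(x) = b` is unique and GALOIS-FIXED.
-/
import Mathlib
import Fermat.Agent.MAZ.Point.PlanePoint82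
import Fermat.Agent.X0.FracR
import Fermat.Prelude.Def_ModularCurve_ArithmeticGalois

set_option autoImplicit false

open AlgebraicCurve ModularCurve Polynomial
open scoped Polynomial.Bivariate

namespace Fermat.Agent.MAZ.Point.PlanePointMod82

open Fermat.Agent.X0 Fermat.Agent.MW.FF.EvalLead49 Fermat.Agent.MAZ.Point.PlanePoint82

local notation "Qb" => AlgebraicClosure ℚ

/-- the formal `j(q^d)` is fixed by the whole Galois group. -/
theorem arithmeticGalois_smul_jdF (N : ℕ) [NeZero N] (d : ℕ) [NeZero d] (hd : d ∣ N)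
    (σ : Qb ≃ₐ[ℚ] Qb) :
    arithmeticGalois (modularFunctionFieldFull N) σ • jdF N d hd = jdF N d hd := by
  apply Subtype.ext
  rw [coe_arithmeticGalois_smul]
  exact coeffMap_coeffEmb σ _

/-- for `p` prime, `FF p = ℚ̄(j, j_p)`. -/
theorem adjoin_pair_eq_top {p : ℕ} [NeZero p] (hp : p.Prime) :
    IntermediateField.adjoin Qb {jF p, jdF p p dvd_rfl} = ⊤ := by
  rw [eq_top_iff, FracR.FF_eq_adjoin p]
  apply IntermediateField.adjoin.mono
  rintro y ⟨d, hne, hd, rfl⟩
  rcases (Nat.dvd_prime hp).mp hd with rfl | rfl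
  · left; rfl
  · right; rfl

variable {p : ℕ} [NeZero p]

/-- **uniqueness of the place of `X₀(p)` through a nonsingular point of the plane model.** -/
theorem place_unique_jjp (hp : p.Prime) (Φ : Qb[X][Y])
    (hrel : aevalAeval (jF p) (jdF p p dvd_rfl) Φ = 0) {a b : Qb}
    (hns : evalEval a b (derivative Φ) ≠ 0 ∨
      evalEval b a (derivative (Bivariate.swap Φ)) ≠ 0)
    {x x' : Place Qb (FF p)}
    (hxj : IsValAt x (jF p) a) (hxjp : IsValAt x (jdF p p dvd_rfl) b)
    (hxj' : IsValAt x' (jF p) a) (hxjp' : IsValAt x' (jdF p p dvd_rfl) b) : x = x' :=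
  place_unique Φ (adjoin_pair_eq_top hp) hrel hns hxj hxjp hxj' hxjp'

/-- **the place of `X₀(p)` through a nonsingular point with Galois-fixed coordinates is
Galois-fixed.** -/
theorem galois_fixed_place (hp : p.Prime) (Φ : Qb[X][Y])
    (hrel : aevalAeval (jF p) (jdF p p dvd_rfl) Φ = 0) {a b : Qb}
    (ha : ∀ σ : Qb ≃ₐ[ℚ] Qb, σ a = a) (hb : ∀ σ : Qb ≃ₐ[ℚ] Qb, σ b = b)
    (hns : evalEval a b (derivative Φ) ≠ 0 ∨
      evalEval b a (derivative (Bivariate.swap Φ)) ≠ 0)
    {x : Place Qb (FF p)}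
    (hxj : IsValAt x (jF p) a) (hxjp : IsValAt x (jdF p p dvd_rfl) b) (σ : Qb ≃ₐ[ℚ] Qb) :
    arithmeticGalois (modularFunctionFieldFull p) σ • x = x :=
  smul_place_eq_self Φ (adjoin_pair_eq_top hp) hrel hns _
    (arithmeticGalois_smul_jdF p 1 (one_dvd p) σ) (arithmeticGalois_smul_jdF p p dvd_rfl σ)
    (ha σ) (hb σ) hxj hxjp

/-- rational coordinates. -/
theorem galois_fixed_place_rat (hp : p.Prime) (Φ : Qb[X][Y])
    (hrel : aevalAeval (jF p) (jdF p p dvd_rfl) Φ = 0) (a b : ℚ)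
    (hns : evalEval (algebraMap ℚ Qb a) (algebraMap ℚ Qb b) (derivative Φ) ≠ 0 ∨
      evalEval (algebraMap ℚ Qb b) (algebraMap ℚ Qb a) (derivative (Bivariate.swap Φ)) ≠ 0)
    {x : Place Qb (FF p)}
    (hxj : IsValAt x (jF p) (algebraMap ℚ Qb a))
    (hxjp : IsValAt x (jdF p p dvd_rfl) (algebraMap ℚ Qb b)) (σ : Qb ≃ₐ[ℚ] Qb) :
    arithmeticGalois (modularFunctionFieldFull p) σ • x = x :=
  galois_fixed_place hp Φ hrel (fun τ => τ.commutes a) (fun τ => τ.commutes b) hns hxj hxjp σ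

end Fermat.Agent.MAZ.Point.PlanePointMod82
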