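/-
Program MAZ (S15), X-side, brick PP (helper82), adapters to the vocabulary of `XSpec62`
(`HasValue`, `PlaceFixed`, `jpF`) and of `NewtonPhi41` (`Φ : ℤ[X][X]`, outer variable `X`, inner
variable `Y`, `ev Φ x y`, `polyX`, `polyY`).

* `ev_eq_aevalAeval`, `eval_derivative_polyX`, `eval_derivative_polyY` : dictionary between
  helper41's evaluations and Mathlib's bivariate `aevalAeval` / `evalEval`;
* `place_unique_ev` : general form of `PlanePoint82.place_unique` for `Φ : ℤ[X][X]`;
* `placeFixed_of_ev` / `placeFixed_of_ev'` : a place of `FF p` at which `(j_p, j)` resp. `(j, j_p)`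
  take Galois-fixed values forming a nonsingular point of `Φ = 0` is Galois-fixed
  (`XSpec62.PlaceFixed`);  `place_unique_of_ev` the corresponding uniqueness.
-/
import Mathlib
import Fermat.Agent.MAZ.Point.PlanePointMod82
import Fermat.Agent.MAZ.Spec.XSpec62
import Fermat.Agent.MAZ.Moduli.NewtonPhi41

set_option autoImplicit false
set_option linter.unusedSectionVars false

open AlgebraicCurve ModularCurve Polynomial
open scoped Polynomial.Bivariate

namespace Fermat.Agent.MAZ.Point.PlanePointSpec82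

open Fermat.Agent.X0 Fermat.Agent.MW.FF.EvalLead49 Fermat.Agent.MAZ.Point.PlanePoint82
  Fermat.Agent.MAZ.Point.PlanePointMod82 Fermat.Agent.MAZ.Spec.XSpec62
  Fermat.Agent.MAZ.Moduli.NewtonPhi41

/-! ### Dictionary with `NewtonPhi41` -/

section Dict

variable {K F : Type*} [Field K] [Field F] [Algebra K F]

/-- `Φ` with coefficients in `K`, as a Mathlib bivariate polynomial (outer variable of `Φ` =
Mathlib's `Y`, inner variable = Mathlib's `X`). -/
noncomputable def toBiv (K : Type*) [Field K] (Φ : ℤ[X][X]) : K[X][Y] :=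
  Φ.map (mapRingHom (Int.castRingHom K))

theorem ev_eq_evalEval (Φ : ℤ[X][X]) (x y : K) : ev Φ x y = evalEval y x (toBiv K Φ) := by
  rw [ev, toBiv, eval₂_eval₂RingHom_apply]

theorem ev_eq_aevalAeval (Φ : ℤ[X][X]) (f g : F) :
    ev Φ f g = aevalAeval g f (toBiv K Φ) := by
  rw [ev, toBiv]
  induction Φ using Polynomial.induction_on' with
  | add p q hp hq => rw [eval₂_add, Polynomial.map_add, map_add, hp, hq]
  | monomial n c =>
    rw [eval₂_monomial, Polynomial.map_monomial, ← C_mul_X_pow_eq_monomial, map_mul, map_pow,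
      aevalAeval_C, aevalAeval_Y]
    congr 1
    induction c using Polynomial.induction_on' with
    | add p q hp hq => rw [map_add, map_add, map_add, hp, hq]
    | monomial m r =>
      rw [coe_eval₂RingHom, eval₂_monomial, coe_mapRingHom, Polynomial.map_monomial, aeval_monomial]
      simp

theorem eval_derivative_polyX (Φ : ℤ[X][X]) (x y : K) :
    (polyX Φ y).derivative.eval x = evalEval y x (derivative (toBiv K Φ)) := by
  rw [polyX, derivative_map, eval_map, toBiv, derivative_map, eval₂_eval₂RingHom_apply]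

theorem eval_derivative_polyY (Φ : ℤ[X][X]) (x y : K) :
    (polyY Φ x).derivative.eval y =
      evalEval x y (derivative (Bivariate.swap (toBiv K Φ))) := by
  rw [polyY, toBiv]
  induction Φ using Polynomial.induction_on' with
  | add p q hp hq =>
    rw [eval₂_add, derivative_add, eval_add, Polynomial.map_add, map_add, derivative_add,
      evalEval_add, hp, hq]
  | monomial n c =>
    induction c using Polynomial.induction_on' with
    | add p q hp hq =>
      rw [map_add (monomial n) p q, eval₂_add, derivative_add, eval_add, Polynomial.map_add, map_add,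
        derivative_add, evalEval_add, hp, hq]
    | monomial m r =>
      rw [eval₂_monomial, Polynomial.map_monomial, coe_mapRingHom, Polynomial.map_monomial,
        Bivariate.swap_monomial_monomial, derivative_monomial]
      simp [evalEval, derivative_mul, derivative_pow, ← C_mul_X_pow_eq_monomial]
      ring

end Dict

/-! ### General statements in the vocabulary of `NewtonPhi41` -/

section General

variable {K F : Type*} [Field K] [Field F] [Algebra K F] {f g : F} {a b : K} {x x' : Place K F}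

theorem isValAt_of_ord_pos (h : 0 < x.ord (f - algebraMap K F a)) : IsValAt x f a :=
  isValAt_iff.mpr (Or.inr h)

/-- specialisation of a relation `Φ(X := f, Y := g) = 0` at a place. -/
theorem ev_eq_zero_of_isValAt (Φ : ℤ[X][X]) (hrel : ev Φ f g = 0)
    (hxf : IsValAt x f a) (hxg : IsValAt x g b) : ev Φ a b = 0 := by
  rw [ev_eq_evalEval]
  refine evalEval_eq_zero_of_aevalAeval_eq_zero (toBiv K Φ) hxg hxf ?_
  rw [← ev_eq_aevalAeval]; exact hrel

/-- **uniqueness of the place through a nonsingular plane point**, `Φ : ℤ[X][X]` in the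
convention of `NewtonPhi41`: `Φ(X := f, Y := g) = 0`, values `f ↦ a`, `g ↦ b`, and
`∂Φ/∂X (a, b) ≠ 0` or `∂Φ/∂Y (a, b) ≠ 0`. -/
theorem place_unique_ev (Φ : ℤ[X][X]) (hgen : IntermediateField.adjoin K {f, g} = ⊤)
    (hrel : ev Φ f g = 0)
    (hns : (polyX Φ b).derivative.eval a ≠ 0 ∨ (polyY Φ a).derivative.eval b ≠ 0)
    (hxf : IsValAt x f a) (hxg : IsValAt x g b) (hxf' : IsValAt x' f a) (hxg' : IsValAt x' g b) :
    x = x' := by
  have hgen' : IntermediateField.adjoin K {g, f} = ⊤ := by rw [Set.pair_comm]; exact hgen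
  have hrel' : aevalAeval g f (toBiv K Φ) = 0 := by rw [← ev_eq_aevalAeval]; exact hrel
  refine place_unique (toBiv K Φ) hgen' hrel' ?_ hxg hxf hxg' hxf'
  rw [← eval_derivative_polyX, ← eval_derivative_polyY]
  exact hns

open SemilinearAut in
/-- the place through a nonsingular plane point is fixed by the semilinear automorphisms fixing
`f`, `g`, `a`, `b`. -/
theorem smul_place_eq_self_ev (Φ : ℤ[X][X]) (hgen : IntermediateField.adjoin K {f, g} = ⊤)
    (hrel : ev Φ f g = 0)
    (hns : (polyX Φ b).derivative.eval a ≠ 0 ∨ (polyY Φ a).derivative.eval b ≠ 0)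
    (γ : SemilinearAut K F) (hγf : γ • f = f) (hγg : γ • g = g)
    (hγa : baseAut γ a = a) (hγb : baseAut γ b = b)
    (hxf : IsValAt x f a) (hxg : IsValAt x g b) : γ • x = x := by
  have h1 := hxf.smul_aut γ
  have h2 := hxg.smul_aut γ
  rw [hγf, hγa] at h1
  rw [hγg, hγb] at h2
  exact place_unique_ev Φ hgen hrel hns h1 h2 hxf hxg

end General

/-! ### `XSpec62` vocabulary -/

section Spec

variable {p : ℕ} [NeZero p]

theorem isValAt_of_hasValue {x : Place Qb (FF p)} {f : FF p} {a : Qb} (h : HasValue x f a) :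
    IsValAt x f a :=
  isValAt_of_ord_pos h

theorem adjoin_jp_j_eq_top (hp : p.Prime) :
    IntermediateField.adjoin Qb {jpF p, jF p} = ⊤ := by
  rw [Set.pair_comm]
  exact adjoin_pair_eq_top hp

/-- **(PP) for `X₀(p)`, relation `Φ(X := j_p, Y := j) = 0`**: a place at which `j ↦ a`, `j_p ↦ b`
with `a, b` Galois-fixed and `(b, a)` a nonsingular point of `Φ = 0` is Galois-fixed. -/
theorem placeFixed_of_ev (hp : p.Prime) (Φ : ℤ[X][X]) (hrel : ev Φ (jpF p) (jF p) = 0)
    {a b : Qb} (ha : ∀ σ : GQ, σ a = a) (hb : ∀ σ : GQ, σ b = b)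
    (hns : (polyX Φ a).derivative.eval b ≠ 0 ∨ (polyY Φ b).derivative.eval a ≠ 0)
    {x : Place Qb (FF p)} (hxj : HasValue x (jF p) a) (hxjp : HasValue x (jpF p) b) :
    PlaceFixed p x := fun σ =>
  smul_place_eq_self_ev Φ (adjoin_jp_j_eq_top hp) hrel hns _
    (arithmeticGalois_smul_jdF p p dvd_rfl σ) (arithmeticGalois_smul_jdF p 1 (one_dvd p) σ)
    (hb σ) (ha σ) (isValAt_of_hasValue hxjp) (isValAt_of_hasValue hxj)

/-- **(PP) for `X₀(p)`, relation `Φ(X := j, Y := j_p) = 0`.** -/
theorem placeFixed_of_ev' (hp : p.Prime) (Φ : ℤ[X][X]) (hrel : ev Φ (jF p) (jpF p) = 0)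
    {a b : Qb} (ha : ∀ σ : GQ, σ a = a) (hb : ∀ σ : GQ, σ b = b)
    (hns : (polyX Φ b).derivative.eval a ≠ 0 ∨ (polyY Φ a).derivative.eval b ≠ 0)
    {x : Place Qb (FF p)} (hxj : HasValue x (jF p) a) (hxjp : HasValue x (jpF p) b) :
    PlaceFixed p x := fun σ =>
  smul_place_eq_self_ev Φ (adjoin_pair_eq_top hp) hrel hns _
    (arithmeticGalois_smul_jdF p 1 (one_dvd p) σ) (arithmeticGalois_smul_jdF p p dvd_rfl σ)
    (ha σ) (hb σ) (isValAt_of_hasValue hxj) (isValAt_of_hasValue hxjp)

/-- uniqueness, relation `Φ(X := j_p, Y := j) = 0`. -/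
theorem place_unique_of_ev (hp : p.Prime) (Φ : ℤ[X][X]) (hrel : ev Φ (jpF p) (jF p) = 0)
    {a b : Qb}
    (hns : (polyX Φ a).derivative.eval b ≠ 0 ∨ (polyY Φ b).derivative.eval a ≠ 0)
    {x x' : Place Qb (FF p)} (hxj : HasValue x (jF p) a) (hxjp : HasValue x (jpF p) b)
    (hxj' : HasValue x' (jF p) a) (hxjp' : HasValue x' (jpF p) b) : x = x' :=
  place_unique_ev Φ (adjoin_jp_j_eq_top hp) hrel hns (isValAt_of_hasValue hxjp)
    (isValAt_of_hasValue hxj) (isValAt_of_hasValue hxjp') (isValAt_of_hasValue hxj')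

/-- `PlanePointMod82.galois_fixed_place` with `HasValue` hypotheses and `PlaceFixed` conclusion
(Mathlib's bivariate vocabulary: `Φ(X := j, Y := j_p) = 0`). -/
theorem placeFixed_of_hasValue (hp : p.Prime) (Φ : Qb[X][Y])
    (hrel : aevalAeval (jF p) (jpF p) Φ = 0) {a b : Qb}
    (ha : ∀ σ : GQ, σ a = a) (hb : ∀ σ : GQ, σ b = b)
    (hns : evalEval a b (derivative Φ) ≠ 0 ∨
      evalEval b a (derivative (Bivariate.swap Φ)) ≠ 0)
    {x : Place Qb (FF p)} (hxj : HasValue x (jF p) a) (hxjp : HasValue x (jpF p) b) :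
    PlaceFixed p x := fun σ =>
  galois_fixed_place hp Φ hrel ha hb hns (isValAt_of_hasValue hxj) (isValAt_of_hasValue hxjp) σ

/-- rational values are Galois-fixed. -/
theorem galois_fixed_algebraMap (r : ℚ) (σ : GQ) : σ (algebraMap ℚ Qb r) = algebraMap ℚ Qb r :=
  σ.commutes r

end Spec

end Fermat.Agent.MAZ.Point.PlanePointSpec82
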