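/-
Program MAZ (S15), chapter Point, helper62: the contracts `NPDich` and `PPFixed` of `ModAsm62` from a
modular polynomial `Φ` of level `p` (`Shape p Φ`, `Φ(j, j_p) = 0` in `FF p`):
`NewtonPhi41` (helper41) + `PlanePointSpec82` (helper82).
-/
import Mathlib
import Fermat.Agent.MAZ.Point.ModAsm62
import Fermat.Agent.MAZ.Point.PlanePointSpec82
import Fermat.Agent.MAZ.Moduli.NewtonPhi41

set_option autoImplicit false
set_option linter.unusedSectionVars false

open AlgebraicCurve ModularCurve Polynomial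

namespace Fermat.Agent.MAZ.Point.ModGlue62

open Fermat.Agent.X0 Fermat.Agent.MAZ.Spec.XSpec62 Fermat.Agent.MAZ.Point.ModAsm62
  Fermat.Agent.MAZ.Point.PlanePointSpec82 Fermat.Agent.MAZ.Moduli.NewtonPhi41

variable {p : ℕ} [NeZero p]

theorem one_lt_valuation_of_not_mem {A : ValuationSubring Qb} {a : Qb} (ha : a ∉ A) :
    1 < A.valuation a :=
  not_le.mp fun h => ha ((A.valuation_le_one_iff a).mp h)

/-- **(NP)** from a modular polynomial. -/
theorem npDich_of_shape (hp1 : 1 ≤ p) (Φ : ℤ[X][X]) (hS : Shape p Φ)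
    (hrel : ev Φ (jF p) (jpF p) = 0) : NPDich p := by
  intro x a b hxa hxb A haA
  have h0 : ev Φ a b = 0 :=
    ev_eq_zero_of_isValAt Φ hrel (isValAt_of_hasValue hxa) (isValAt_of_hasValue hxb)
  rcases dichotomy' A.valuation hp1 hS h0 (one_lt_valuation_of_not_mem haA) with h | h
  · left
    rw [map_pow]
    exact h
  · right
    rw [map_pow]
    exact h

/-- **(PP)** from a modular polynomial. -/
theorem ppFixed_of_shape (hp : p.Prime) (Φ : ℤ[X][X]) (hS : Shape p Φ)
    (hrel : ev Φ (jF p) (jpF p) = 0) : PPFixed p := by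
  rintro x a b hxa hxb ⟨A, haA⟩
  have h0 : ev Φ (a : Qb) (b : Qb) = 0 :=
    ev_eq_zero_of_isValAt Φ hrel (isValAt_of_hasValue hxa) (isValAt_of_hasValue hxb)
  have hx : 1 < A.valuation (a : Qb) := one_lt_valuation_of_not_mem haA
  have hfix : ∀ r : ℚ, ∀ σ : GQ, σ (r : Qb) = (r : Qb) := fun r σ => by
    rw [← eq_ratCast (algebraMap ℚ Qb) r]
    exact σ.commutes r
  refine placeFixed_of_ev' hp Φ hrel (hfix a) (hfix b) ?_ hxa hxb
  rcases dichotomy' A.valuation hp.one_le hS h0 hx with h | h
  · -- big root in `Y`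
    right
    intro h1
    have h2 := dY_big A.valuation hp.two_le hS h0 hx h
    rw [h1, map_zero] at h2
    have hy : 1 < A.valuation (b : Qb) := one_lt_of_one_lt' A.valuation hp.one_le hS h0 hx
    exact (pow_pos (lt_trans zero_lt_one hy) p).ne' h2.symm
  · -- small root in `Y`, i.e. big root in `X`
    left
    intro h1
    have hy : 1 < A.valuation (b : Qb) := one_lt_of_one_lt' A.valuation hp.one_le hS h0 hx
    have h2 := dX_big A.valuation hp.two_le hS h0 hy h.symm
    rw [h1, map_zero] at h2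
    exact (pow_pos (lt_trans zero_lt_one hx) p).ne' h2.symm

end Fermat.Agent.MAZ.Point.ModGlue62
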