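/-
Program MAZ (S15), chapter Point, helper82: the contracts `ModAsm62.PPFixed p` and `ModAsm62.NPDich p`
WITHOUT hypotheses, for `p` prime.

`Φ := ModPolyShape41.modPoly p` (helper41) has `Shape p Φ`; its two (P0) identities hold inside
`FF p` (`ModEqAn42.ev_uX_uY / ev_uY_uX` of helper42, pushed along `Rsub p ⊆ FF p`); then
`ModGlue62.ppFixed_of_shape / npDich_of_shape` (helper62, on `PlanePointSpec82` + `NewtonPhi41`).
-/
import Mathlib
import Fermat.Agent.MAZ.Point.ModGlue62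
import Fermat.Agent.MAZ.Moduli.ModPolyShape41
import Fermat.Agent.MAZ.Analytic.ModEqAn42

set_option autoImplicit false
set_option linter.unusedSectionVars false

open AlgebraicCurve ModularCurve Polynomial

namespace Fermat.Agent.MAZ.Point.PPFinal82

open Fermat.Agent.X0 Fermat.Agent.MAZ.Spec.XSpec62 Fermat.Agent.MAZ.Point.ModAsm62
  Fermat.Agent.MAZ.Point.ModGlue62 Fermat.Agent.MAZ.Moduli.NewtonPhi41
  Fermat.Agent.MAZ.Moduli.ModPolyShape41 Fermat.Agent.MAZ.Analytic.ModEqAn42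

variable {p : ℕ} [NeZero p]

/-- the inclusion `ℚbar[j, j_p] ⊆ FF p` as a ring homomorphism. -/
noncomputable def inclR (p : ℕ) [NeZero p] : Rsub p →+* FF p := (Rsub p).val.toRingHom

theorem inclR_uX : inclR p (uX p) = jpF p := rfl

theorem inclR_uY : inclR p (uY p) = jF p := rfl

/-- `Φ(X := j_p, Y := j) = 0` in `FF p` for every witness `Φ` of the first (P0) identity. -/
theorem ev_jp_j (Φ : ℤ[X][X])
    (h1 : Φ.eval₂ (Fermat.Agent.IG.PR.Interface20.evalAt ℤ (jqModC ℤ)) (qExpand ℤ p (jqModC ℤ)) = 0) :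
    ev Φ (jpF p) (jF p) = 0 := by
  have h := congrArg (inclR p) (ev_uX_uY Φ h1)
  rw [map_ev, map_zero, inclR_uX, inclR_uY] at h
  exact h

/-- `Φ(X := j, Y := j_p) = 0` in `FF p` for every witness `Φ` of the second (P0) identity. -/
theorem ev_j_jp (Φ : ℤ[X][X])
    (h2 : Φ.eval₂ (Fermat.Agent.IG.PR.Interface20.evalAt ℤ (qExpand ℤ p (jqModC ℤ))) (jqModC ℤ) = 0) :
    ev Φ (jF p) (jpF p) = 0 := by
  have h := congrArg (inclR p) (ev_uY_uX Φ h2)
  rw [map_ev, map_zero, inclR_uX, inclR_uY] at h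
  exact h

theorem ev_modPoly_jp_j (hp : p.Prime) : ev (modPoly p) (jpF p) (jF p) = 0 :=
  ev_jp_j _ (modPoly_eval hp)

theorem ev_modPoly_j_jp (hp : p.Prime) : ev (modPoly p) (jF p) (jpF p) = 0 :=
  ev_j_jp _ (modPoly_eval' hp)

/-- **`ModAsm62.PPFixed p`, unconditionally.** -/
theorem ppFixed (hp : p.Prime) : PPFixed p :=
  ppFixed_of_shape hp (modPoly p) (modPoly_shape hp) (ev_modPoly_j_jp hp)

/-- **`ModAsm62.NPDich p`, unconditionally.** -/
theorem npDich (hp : p.Prime) : NPDich p :=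
  npDich_of_shape hp.one_le (modPoly p) (modPoly_shape hp) (ev_modPoly_j_jp hp)

end Fermat.Agent.MAZ.Point.PPFinal82
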