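/-
Program MAZ (S15), X-side, brick PP (helper82): PLANE POINTS OF A FUNCTION FIELD.

Setting: `F / K` any extension of fields, `f g : F` with `F = K(f, g)`, a bivariate polynomial
`Φ : K[X][Y]` (Mathlib's `Polynomial (Polynomial K)`: inner variable `X`, outer variable `Y`) with
`Φ(f, g) = 0`, and a point `(a, b) : K × K`.  Values at places are `EvalLead49.IsValAt`.

* `isValAt_aeval`, `isValAt_aevalAeval`: a polynomial in functions having values at a place `x`
  has the expected value; `evalEval_eq_zero_of_aevalAeval_eq_zero` (specialisation of relations).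
* `place_unique`: if `(a, b)` is a NONSINGULAR point of `Φ = 0` (one of the two partial derivatives
  does not vanish at `(a, b)`), there is AT MOST ONE place `x` of `F / K` with `f(x) = a`,
  `g(x) = b`.
* `ord_sub_eq_one`: if `∂Φ/∂Y (a, b) ≠ 0` then `f - a` is a uniformizer at such a place.
* `smul_place_eq_self`: such a place is fixed by every semilinear automorphism fixing `f`, `g`,
  `a`, `b`.

The proof is elementary (no completions, no criterion for discrete valuation rings): from `Φ` one
gets `(g - b) β = -(f - a) α` with `α, β ∈ K[f, g]`, `β(a, b) = ∂Φ/∂Y (a, b) ≠ 0`; by induction on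
`ord_x` every nonzero `r ∈ K[f, g]` satisfies `s r = (f - a)^k t` with `s, t ∈ K[f, g]` not
vanishing at `(a, b)`; hence `ord_y h = m · ord_y (f - a)` for every `h ∈ F^×`, with `m`
independent of the place `y` through `(a, b)`.
-/
import Mathlib
import Fermat.Agent.MW.FF.EvalLead49

set_option autoImplicit false

open AlgebraicCurve Polynomial
open scoped Polynomial.Bivariate

namespace Fermat.Agent.MAZ.Point.PlanePoint82

open Fermat.Agent.MW.FF.EvalLead49 Fermat.Agent.X0.FF

variable {K F : Type*} [Field K] [Field F] [Algebra K F]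

/-! ### Values of polynomials at a place -/

section Values

variable {x : Place K F} {f g : F} {a b : K}

theorem isValAt_aeval (p : K[X]) (hf : IsValAt x f a) :
    IsValAt x (aeval f p) (eval a p) := by
  induction p using Polynomial.induction_on' with
  | add p q hp hq => rw [map_add, eval_add]; exact hp.add hq
  | monomial n c =>
    rw [aeval_monomial, eval_monomial]
    exact (isValAt_algebraMap c).mul (hf.pow n)

theorem isValAt_aevalAeval (P : K[X][Y]) (hf : IsValAt x f a) (hg : IsValAt x g b) :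
    IsValAt x (aevalAeval f g P) (evalEval a b P) := by
  induction P using Polynomial.induction_on' with
  | add p q hp hq => rw [map_add, evalEval_add]; exact hp.add hq
  | monomial n c =>
    have h1 : (monomial n c : K[X][Y]) = C c * X ^ n := by rw [C_mul_X_pow_eq_monomial]
    rw [h1, map_mul, map_pow, aevalAeval_C, aevalAeval_Y, evalEval_mul, evalEval_pow, evalEval_C,
      evalEval_X]
    exact (isValAt_aeval c hf).mul (hg.pow n)

/-- specialisation of a relation at a place. -/
theorem evalEval_eq_zero_of_aevalAeval_eq_zero (P : K[X][Y]) (hf : IsValAt x f a)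
    (hg : IsValAt x g b) (h : aevalAeval f g P = 0) : evalEval a b P = 0 := by
  have h1 := isValAt_aevalAeval P hf hg
  rw [h] at h1
  exact h1.unique isValAt_zero

end Values

/-! ### Polynomial algebra -/

section Decomp

/-- `P = P(a,b) + (X - a) A(X) + (Y - b) B(X,Y)`. -/
theorem exists_decomp (P : K[X][Y]) (a b : K) :
    ∃ (A : K[X]) (B : K[X][Y]),
      P = C (C (evalEval a b P)) + C ((X - C a) * A) + (X - C (C b)) * B := by
  refine ⟨(P.eval (C b)) /ₘ (X - C a), P /ₘ (X - C (C b)), ?_⟩
  have h1 := modByMonic_add_div P (X - C (C b))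
  have h2 := modByMonic_add_div (P.eval (C b)) (X - C a)
  rw [modByMonic_X_sub_C_eq_C_eval] at h1 h2
  conv_lhs => rw [← h1, ← h2]
  rw [C_add]

/-- the relation coming from `Φ(f,g) = 0`, `Φ(a,b) = 0`. -/
theorem exists_rel (Φ : K[X][Y]) {f g : F} {a b : K} (hrel : aevalAeval f g Φ = 0)
    (hab : evalEval a b Φ = 0) :
    ∃ (A₀ B₀ : K[X][Y]), evalEval a b B₀ = evalEval a b (derivative Φ) ∧
      (g - algebraMap K F b) * aevalAeval f g B₀ =
        -((f - algebraMap K F a) * aevalAeval f g A₀) := by
  obtain ⟨A, B, h⟩ := exists_decomp Φ a b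
  rw [hab, map_zero, map_zero, zero_add] at h
  refine ⟨C A, B, ?_, ?_⟩
  · conv_rhs => rw [h]
    simp [evalEval]
  · have h2 := congrArg (aevalAeval f g) h
    rw [hrel] at h2
    simp only [map_add, map_mul, map_sub, aevalAeval_C, aevalAeval_Y, aeval_X, aeval_C] at h2
    rw [aevalAeval_C]
    linear_combination -h2

end Decomp

/-! ### The core: all orders are multiples of `ord (f - a)` -/

section Core

variable {f g : F} {a b : K} {A₀ B₀ : K[X][Y]}

/-- division step: a polynomial vanishing at `(a,b)`, times `B₀`, is divisible by `f - a`. -/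
theorem exists_step
    (hrel : (g - algebraMap K F b) * aevalAeval f g B₀ =
      -((f - algebraMap K F a) * aevalAeval f g A₀))
    (P : K[X][Y]) (hP : evalEval a b P = 0) :
    ∃ P' : K[X][Y], aevalAeval f g B₀ * aevalAeval f g P =
      (f - algebraMap K F a) * aevalAeval f g P' := by
  obtain ⟨A, B, h⟩ := exists_decomp P a b
  rw [hP, map_zero, map_zero, zero_add] at h
  refine ⟨C A * B₀ - A₀ * B, ?_⟩
  have hPfg : aevalAeval f g P = (f - algebraMap K F a) * aeval f A +
      (g - algebraMap K F b) * aevalAeval f g B := by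
    have h2 := congrArg (aevalAeval f g) h
    simpa only [map_add, map_mul, map_sub, aevalAeval_C, aevalAeval_Y, aeval_X, aeval_C] using h2
  rw [hPfg, map_sub, map_mul, map_mul, aevalAeval_C]
  linear_combination (aevalAeval f g B) * hrel

variable {x : Place K F}

/-- every nonzero element of `K[f,g]` is `(f-a)^k` times a quotient of elements of `K[f,g]`
not vanishing at `(a,b)`. -/
theorem exists_factor (hxf : IsValAt x f a) (hxg : IsValAt x g b)
    (hrel : (g - algebraMap K F b) * aevalAeval f g B₀ =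
      -((f - algebraMap K F a) * aevalAeval f g A₀))
    (hB₀ : evalEval a b B₀ ≠ 0) :
    ∀ (n : ℕ) (P : K[X][Y]), aevalAeval f g P ≠ 0 → x.ord (aevalAeval f g P) ≤ n →
      ∃ (k : ℕ) (S T : K[X][Y]), evalEval a b S ≠ 0 ∧ evalEval a b T ≠ 0 ∧
        aevalAeval f g S * aevalAeval f g P =
          (f - algebraMap K F a) ^ k * aevalAeval f g T := by
  intro n
  induction n with
  | zero =>
    intro P hne hord
    by_cases hc : evalEval a b P = 0
    · exfalso
      rcases (isValAt_aevalAeval P hxf hxg).eq_zero_iff.mp hc with h | h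
      · exact hne h
      · have : (0 : ℤ) < 0 := lt_of_lt_of_le h (by exact_mod_cast hord)
        exact lt_irrefl _ this
    · exact ⟨0, 1, P, by rw [evalEval_one]; exact one_ne_zero, hc, by rw [map_one, pow_zero]⟩
  | succ n ih =>
    intro P hne hord
    by_cases hc : evalEval a b P = 0
    · obtain ⟨P', hP'⟩ := exists_step hrel P hc
      obtain ⟨hβ0, hβord⟩ := (isValAt_aevalAeval B₀ hxf hxg).ord_eq_zero hB₀
      have hprod : aevalAeval f g B₀ * aevalAeval f g P ≠ 0 := mul_ne_zero hβ0 hne
      rw [hP'] at hprod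
      have hu0 : f - algebraMap K F a ≠ 0 := left_ne_zero_of_mul hprod
      have hP'0 : aevalAeval f g P' ≠ 0 := right_ne_zero_of_mul hprod
      have hupos : 0 < x.ord (f - algebraMap K F a) := by
        rcases isValAt_iff.mp hxf with h | h
        · exact absurd h hu0
        · exact h
      have hordeq : x.ord (aevalAeval f g P) =
          x.ord (f - algebraMap K F a) + x.ord (aevalAeval f g P') := by
        have h1 := congrArg x.ord hP'
        rw [x.ord_mul hβ0 hne, x.ord_mul hu0 hP'0, hβord, zero_add] at h1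
        exact h1
      have hle : x.ord (aevalAeval f g P') ≤ n := by
        have : x.ord (aevalAeval f g P) ≤ (n : ℤ) + 1 := by exact_mod_cast hord
        omega
      obtain ⟨k, S, T, hS, hT, hST⟩ := ih P' hP'0 hle
      refine ⟨k + 1, S * B₀, T, ?_, hT, ?_⟩
      · rw [evalEval_mul]; exact mul_ne_zero hS hB₀
      · rw [map_mul, mul_assoc, hP', pow_succ]
        linear_combination (f - algebraMap K F a) * hST
    · exact ⟨0, 1, P, by rw [evalEval_one]; exact one_ne_zero, hc, by rw [map_one, pow_zero]⟩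

theorem adjoin_le_range (f g : F) :
    Algebra.adjoin K {f, g} ≤ (aevalAeval f g : K[X][Y] →ₐ[K] F).range := by
  refine Algebra.adjoin_le ?_
  rintro z (rfl | rfl)
  · exact ⟨C X, aevalAeval_X _ _⟩
  · exact ⟨X, aevalAeval_Y _ _⟩

/-- **order formula**: for every `h ≠ 0` there is `m : ℤ` with `ord_y h = m · ord_y (f - a)` at
EVERY place `y` through `(a,b)`. -/
theorem exists_ord_formula (hgen : IntermediateField.adjoin K {f, g} = ⊤)
    (hxf : IsValAt x f a) (hxg : IsValAt x g b)
    (hrel : (g - algebraMap K F b) * aevalAeval f g B₀ =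
      -((f - algebraMap K F a) * aevalAeval f g A₀))
    (hB₀ : evalEval a b B₀ ≠ 0) (h : F) (hh : h ≠ 0) :
    ∃ m : ℤ, (m ≠ 0 → f - algebraMap K F a ≠ 0) ∧
      ∀ y : Place K F, IsValAt y f a → IsValAt y g b →
        y.ord h = m * y.ord (f - algebraMap K F a) := by
  have hmem : h ∈ IntermediateField.adjoin K {f, g} := by rw [hgen]; trivial
  obtain ⟨r, hr, s, hs, hrs⟩ := IntermediateField.mem_adjoin_iff_div.mp hmem
  obtain ⟨P₁, hP₁⟩ := adjoin_le_range f g hr
  obtain ⟨P₂, hP₂⟩ := adjoin_le_range f g hs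
  change aevalAeval f g P₁ = r at hP₁
  change aevalAeval f g P₂ = s at hP₂
  subst hP₁ hP₂
  have hs0 : aevalAeval f g P₂ ≠ 0 := by
    rintro h0
    rw [h0, div_zero] at hrs
    exact hh hrs
  have hr0 : aevalAeval f g P₁ ≠ 0 := by
    rintro h0
    rw [h0, zero_div] at hrs
    exact hh hrs
  obtain ⟨k₁, S₁, T₁, hS₁, hT₁, e₁⟩ := exists_factor hxf hxg hrel hB₀
    (x.ord (aevalAeval f g P₁)).toNat P₁ hr0 (Int.self_le_toNat _)
  obtain ⟨k₂, S₂, T₂, hS₂, hT₂, e₂⟩ := exists_factor hxf hxg hrel hB₀
    (x.ord (aevalAeval f g P₂)).toNat P₂ hs0 (Int.self_le_toNat _)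
  -- facts valid at every place through `(a,b)`
  have key : ∀ (y : Place K F), IsValAt y f a → IsValAt y g b →
      ∀ (k : ℕ) (S T P : K[X][Y]), evalEval a b S ≠ 0 → evalEval a b T ≠ 0 →
        aevalAeval f g P ≠ 0 →
        aevalAeval f g S * aevalAeval f g P = (f - algebraMap K F a) ^ k * aevalAeval f g T →
        (k ≠ 0 → f - algebraMap K F a ≠ 0) ∧
        y.ord (aevalAeval f g P) = k * y.ord (f - algebraMap K F a) := by
    intro y hyf hyg k S T P hS hT hP0 e
    obtain ⟨hS0, hSord⟩ := (isValAt_aevalAeval S hyf hyg).ord_eq_zero hS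
    obtain ⟨hT0, hTord⟩ := (isValAt_aevalAeval T hyf hyg).ord_eq_zero hT
    have hprod : aevalAeval f g S * aevalAeval f g P ≠ 0 := mul_ne_zero hS0 hP0
    have hpow : (f - algebraMap K F a) ^ k ≠ 0 := by
      rw [e] at hprod
      exact left_ne_zero_of_mul hprod
    refine ⟨fun hk hu => hpow (by rw [hu, zero_pow hk]), ?_⟩
    have h1 := congrArg y.ord e
    rw [y.ord_mul hS0 hP0, y.ord_mul hpow hT0, hSord, hTord, zero_add, add_zero, ord_pow] at h1
    exact h1
  refine ⟨(k₁ : ℤ) - k₂, ?_, ?_⟩
  · intro hm hu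
    have h1 := (key x hxf hxg k₁ S₁ T₁ P₁ hS₁ hT₁ hr0 e₁).1
    have h2 := (key x hxf hxg k₂ S₂ T₂ P₂ hS₂ hT₂ hs0 e₂).1
    have hk₁ : k₁ = 0 := by
      by_contra hk
      exact h1 hk hu
    have hk₂ : k₂ = 0 := by
      by_contra hk
      exact h2 hk hu
    apply hm
    rw [hk₁, hk₂]
    simp
  · intro y hyf hyg
    have h1 := (key y hyf hyg k₁ S₁ T₁ P₁ hS₁ hT₁ hr0 e₁).2
    have h2 := (key y hyf hyg k₂ S₂ T₂ P₂ hS₂ hT₂ hs0 e₂).2
    rw [hrs, div_eq_mul_inv, y.ord_mul hr0 (inv_ne_zero hs0), y.ord_inv, h1, h2]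
    ring

/-- uniqueness of the place through `(a,b)`, abstract form. -/
theorem place_unique_of_rel {x' : Place K F} (hgen : IntermediateField.adjoin K {f, g} = ⊤)
    (hrel : (g - algebraMap K F b) * aevalAeval f g B₀ =
      -((f - algebraMap K F a) * aevalAeval f g A₀))
    (hB₀ : evalEval a b B₀ ≠ 0)
    (hxf : IsValAt x f a) (hxg : IsValAt x g b) (hxf' : IsValAt x' f a) (hxg' : IsValAt x' g b) :
    x = x' := by
  apply Place.ext
  ext h
  rw [mem_iff_ord_nonneg, mem_iff_ord_nonneg]
  by_cases hh : h = 0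
  · simp [hh]
  obtain ⟨m, hm0, hm⟩ := exists_ord_formula hgen hxf hxg hrel hB₀ h hh
  rw [hm x hxf hxg, hm x' hxf' hxg', or_iff_right hh, or_iff_right hh]
  by_cases hm' : m = 0
  · rw [hm']; simp
  have hu0 := hm0 hm'
  have hpos : 0 < x.ord (f - algebraMap K F a) := by
    rcases isValAt_iff.mp hxf with h | h
    · exact absurd h hu0
    · exact h
  have hpos' : 0 < x'.ord (f - algebraMap K F a) := by
    rcases isValAt_iff.mp hxf' with h | h
    · exact absurd h hu0
    · exact h
  rw [mul_nonneg_iff_of_pos_right hpos, mul_nonneg_iff_of_pos_right hpos']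

end Core

/-! ### Main statements -/

section Main

variable {f g : F} {a b : K} {x x' : Place K F}

/-- uniqueness of the place through a point where `∂Φ/∂Y ≠ 0`. -/
theorem place_unique_of_derivative (Φ : K[X][Y])
    (hgen : IntermediateField.adjoin K {f, g} = ⊤) (hrel : aevalAeval f g Φ = 0)
    (hns : evalEval a b (derivative Φ) ≠ 0)
    (hxf : IsValAt x f a) (hxg : IsValAt x g b) (hxf' : IsValAt x' f a) (hxg' : IsValAt x' g b) :
    x = x' := by
  have hab := evalEval_eq_zero_of_aevalAeval_eq_zero Φ hxf hxg hrel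
  obtain ⟨A₀, B₀, hB, hr⟩ := exists_rel Φ hrel hab
  exact place_unique_of_rel hgen hr (hB ▸ hns) hxf hxg hxf' hxg'

/-- **(PP) uniqueness of the place through a nonsingular plane point.**  `F = K(f,g)`,
`Φ(f,g) = 0`, and `∂Φ/∂Y (a,b) ≠ 0` or `∂Φ/∂X (a,b) ≠ 0` (the latter written as the `Y`-derivative
of the swapped polynomial at `(b,a)`): two places at which `f, g` take the values `a, b` are
equal. -/
theorem place_unique (Φ : K[X][Y])
    (hgen : IntermediateField.adjoin K {f, g} = ⊤) (hrel : aevalAeval f g Φ = 0)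
    (hns : evalEval a b (derivative Φ) ≠ 0 ∨
      evalEval b a (derivative (Bivariate.swap Φ)) ≠ 0)
    (hxf : IsValAt x f a) (hxg : IsValAt x g b) (hxf' : IsValAt x' f a) (hxg' : IsValAt x' g b) :
    x = x' := by
  rcases hns with h | h
  · exact place_unique_of_derivative Φ hgen hrel h hxf hxg hxf' hxg'
  · have hgen' : IntermediateField.adjoin K {g, f} = ⊤ := by rw [Set.pair_comm]; exact hgen
    have hrel' : aevalAeval g f (Bivariate.swap Φ) = 0 := by
      rw [Bivariate.aevalAeval_swap]; exact hrel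
    exact place_unique_of_derivative (Bivariate.swap Φ) hgen' hrel' h hxg hxf hxg' hxf'

/-- if `∂Φ/∂Y (a,b) ≠ 0`, then `f - a` is a uniformizer at the place through `(a,b)`
(the place is unramified over `K(f)`). -/
theorem ord_sub_eq_one (Φ : K[X][Y])
    (hgen : IntermediateField.adjoin K {f, g} = ⊤) (hrel : aevalAeval f g Φ = 0)
    (hns : evalEval a b (derivative Φ) ≠ 0)
    (hxf : IsValAt x f a) (hxg : IsValAt x g b) (hne : f - algebraMap K F a ≠ 0) :
    x.ord (f - algebraMap K F a) = 1 := by
  have hab := evalEval_eq_zero_of_aevalAeval_eq_zero Φ hxf hxg hrel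
  obtain ⟨A₀, B₀, hB, hr⟩ := exists_rel Φ hrel hab
  obtain ⟨π, hπ⟩ := IsDiscreteValuationRing.exists_irreducible x.toValuationSubring
  have hπ0 : ((π : x.toValuationSubring) : F) ≠ 0 := by
    intro h0
    exact hπ.ne_zero (Subtype.ext h0)
  obtain ⟨m, -, hm⟩ := exists_ord_formula hgen hxf hxg hr (hB ▸ hns) (π : F) hπ0
  have h1 := hm x hxf hxg
  rw [x.ord_coe_irreducible hπ] at h1
  have hpos : 0 < x.ord (f - algebraMap K F a) := by
    rcases isValAt_iff.mp hxf with h | h
    · exact absurd h hne
    · exact h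
  exact Int.eq_one_of_mul_eq_one_left hpos.le h1.symm

open SemilinearAut in
/-- **(PP-GAL)** the place through a nonsingular plane point is fixed by every semilinear
automorphism fixing `f`, `g` and the coordinates `a`, `b` of the point. -/
theorem smul_place_eq_self (Φ : K[X][Y])
    (hgen : IntermediateField.adjoin K {f, g} = ⊤) (hrel : aevalAeval f g Φ = 0)
    (hns : evalEval a b (derivative Φ) ≠ 0 ∨
      evalEval b a (derivative (Bivariate.swap Φ)) ≠ 0)
    (γ : SemilinearAut K F) (hγf : γ • f = f) (hγg : γ • g = g)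
    (hγa : baseAut γ a = a) (hγb : baseAut γ b = b)
    (hxf : IsValAt x f a) (hxg : IsValAt x g b) : γ • x = x := by
  have h1 := hxf.smul_aut γ
  have h2 := hxg.smul_aut γ
  rw [hγf, hγa] at h1
  rw [hγg, hγb] at h2
  exact place_unique Φ hgen hrel hns h1 h2 hxf hxg

end Main

end Fermat.Agent.MAZ.Point.PlanePoint82
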