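/-
Program MAZ (S15), brick X-HECKE, part 3 (helper90): THE LINK PACKAGES FROM A MODULAR RELATION.

`TubeHecke90.LinkPkg M d e n` (integrality both ways + the two Newton dichotomies for the pair
`(j_d, j_e)` of `FF M`) from ONE integer polynomial `Φ` of modular-equation shape of level `n`
(`NewtonPhi41.Shape n Φ`) with `Φ(j_d, j_e) = 0 = Φ(j_e, j_d)` in `FF M`:

* `mem_of_ev_eq_zero` : a valuation ring containing `y` contains every root `x` of `Φ(X, y)`
  (`Φ` monic in `X`);
* `linkPkg_of_rel`    : the package (specialisation at places = helper82's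
  `PlanePointSpec82.ev_eq_zero_of_isValAt`; dichotomy = helper41's `dichotomy_of_notMem`);
* `links_of_rel`      : the three packages at the level `p m` from `Φ_m` and `Φ_p`;
* `xHecke_of_rel`     : `XSpec62.XHecke p cZ` from a family of such polynomials.
-/
import Mathlib
import Fermat.Agent.MAZ.Point.TubeHecke90
import Fermat.Agent.MAZ.Point.PlanePointSpec82
import Fermat.Agent.MAZ.Moduli.NewtonPhi41

set_option autoImplicit false
set_option linter.unusedSectionVars false

open AlgebraicCurve ModularCurve Polynomial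

noncomputable section

namespace Fermat.Agent.MAZ.Point.TubeLinks90

open Fermat.Agent.X0 Fermat.Agent.MAZ.Spec.XSpec62 Fermat.Agent.MAZ.Point.TubeHecke90
open Fermat.Agent.MAZ.Moduli.NewtonPhi41 Fermat.Agent.MAZ.Point.PlanePointSpec82

/-- A valuation ring of a field `F` containing `y` contains every `x` with `Φ(x, y) = 0`, `Φ`
monic in the outer variable. -/
theorem mem_of_ev_eq_zero {F : Type*} [Field F] (O : ValuationSubring F) {Φ : ℤ[X][X]}
    (hΦ : Φ.Monic) {x y : F} (hy : y ∈ O) (h : ev Φ x y = 0) : x ∈ O := by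
  let yO : O := ⟨y, hy⟩
  let g : ℤ[X] →+* O := Polynomial.eval₂RingHom (Int.castRingHom O) yO
  have hg : (algebraMap O F).comp g = Polynomial.eval₂RingHom (Int.castRingHom F) y := by
    refine Polynomial.ringHom_ext (fun c => ?_) ?_
    · simp [g]
    · simp [g, yO]
  have hint : IsIntegral O x := by
    refine ⟨Φ.map g, hΦ.map g, ?_⟩
    rw [Polynomial.eval₂_map, hg]
    exact h
  obtain ⟨a, ha⟩ := (IsIntegrallyClosed.isIntegral_iff (R := O) (K := F)).mp hint
  rw [← ha]
  exact a.2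

/-- **The link package of a modular relation.** -/
theorem linkPkg_of_rel {M d e n : ℕ} [NeZero M] [NeZero d] [NeZero e] (hd : d ∣ M) (he : e ∣ M)
    (hn : 1 ≤ n) {Φ : ℤ[X][X]} (hΦ : Shape n Φ)
    (h1 : ev Φ (jdF M d hd) (jdF M e he) = 0) (h2 : ev Φ (jdF M e he) (jdF M d hd) = 0) :
    LinkPkg M d e n hd he where
  nonneg_down w h :=
    FF.ffp_ord_nonneg_of_mem w
      (mem_of_ev_eq_zero _ hΦ.monic (FF.ffp_mem_of_ord_nonneg w h) h1)
  nonneg_up w h :=
    FF.ffp_ord_nonneg_of_mem w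
      (mem_of_ev_eq_zero _ hΦ.monic (FF.ffp_mem_of_ord_nonneg w h) h2)
  dich_down A w a a' ha ha' hA := by
    have h0 : ev Φ a' a = 0 :=
      ev_eq_zero_of_isValAt Φ h1 (isValAt_of_ord_pos ha') (isValAt_of_ord_pos ha)
    exact (dichotomy_of_notMem A hn hΦ h0 hA).2
  dich_up A w a a' ha ha' hA := by
    have h0 : ev Φ a a' = 0 :=
      ev_eq_zero_of_isValAt Φ h2 (isValAt_of_ord_pos ha) (isValAt_of_ord_pos ha')
    exact (dichotomy_of_notMem A hn hΦ h0 hA).2

/-- `Φ` is a *modular relation of level `n`* in `FF M`: it has modular-equation shape of level `n`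
and relates `j_d` and `j_{d n}` (both ways) for every `d` with `d n ∣ M`. -/
structure ModRel (M n : ℕ) [NeZero M] (Φ : ℤ[X][X]) : Prop where
  shape : Shape n Φ
  rel : ∀ (d e : ℕ) [NeZero d] [NeZero e] (hd : d ∣ M) (he : e ∣ M), e = d * n →
    ev Φ (jdF M d hd) (jdF M e he) = 0
  rel' : ∀ (d e : ℕ) [NeZero d] [NeZero e] (hd : d ∣ M) (he : e ∣ M), e = d * n →
    ev Φ (jdF M e he) (jdF M d hd) = 0

theorem ModRel.linkPkg {M n : ℕ} [NeZero M] {Φ : ℤ[X][X]} (h : ModRel M n Φ) (hn : 1 ≤ n)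
    (d e : ℕ) [NeZero d] [NeZero e] (hd : d ∣ M) (he : e ∣ M) (hde : e = d * n) :
    LinkPkg M d e n hd he :=
  linkPkg_of_rel hd he hn h.shape (h.rel d e hd he hde) (h.rel' d e hd he hde)

/-- the three link packages at the level `p m` from `Φ_m` and `Φ_p`. -/
theorem links_of_modRel {p m : ℕ} [NeZero p] [NeZero m] {Φm Φp : ℤ[X][X]}
    (hm : ModRel (p * m) m Φm) (hp : ModRel (p * m) p Φp) : Links p m where
  l1 := hm.linkPkg (Nat.one_le_iff_ne_zero.mpr (NeZero.ne m)) 1 m _ _ (one_mul m).symm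
  l2 := hm.linkPkg (Nat.one_le_iff_ne_zero.mpr (NeZero.ne m)) p (p * m) _ _ rfl
  l3 := hp.linkPkg (Nat.one_le_iff_ne_zero.mpr (NeZero.ne p)) 1 p _ _ (one_mul p).symm

/-- **(X-HECKE) from the modular relations**: if every prime level `n ∣ M` has a modular relation in
`FF M`, the tubes of the two cusps of `X₀(p)` are stable under the `T_m`, `m ≠ p`. -/
theorem xHecke_of_modRel {p : ℕ} [NeZero p] (hp : p.Prime) {cZ : Place Qb (FF p)}
    (hcZ : IsCuspZero p cZ)
    (h : ∀ (M n : ℕ) [NeZero M], n.Prime → n ∣ M → ∃ Φ : ℤ[X][X], ModRel M n Φ) :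
    XHecke p cZ := by
  refine xHecke hp hcZ fun m _ hm _ => ?_
  obtain ⟨Φm, hΦm⟩ := h (p * m) m hm (dvd_mul_left m p)
  obtain ⟨Φp, hΦp⟩ := h (p * m) p hp (dvd_mul_right p m)
  exact links_of_modRel hΦm hΦp

end Fermat.Agent.MAZ.Point.TubeLinks90
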